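/-
Programme MP (row 38 via S44), chapter FINAL (helper6): **export of the connected part of ORD.**

Programme ORD proved `TorsOrd N p k (Iv p)` with `M⁰ := J₀(N)[p^k] ∩ kerRed 𝔻` but only INSIDE the
proofs of `FinalOrd0/1/2`, `AssembleMainN9`, `GlueMainN9`, ….  Here the same steps are restated with
the conclusion `ConnFacts p N k 𝔻`:

* `stab` : `kerRed 𝔻` is stable under inertia;
* `triv` : inertia acts trivially on `J₀(N)[p^k] / M⁰`  (property (i));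
* `conn` : `M⁰ = FinalOrd0.connPart p N k 𝔻` is connected (`OrdP7.Conn`)  (property (CONN)).

Layers: `connFacts_of_semiRedDatum` (`FinalOrd0`), `connFacts_of_psOut` (`FinalOrd1`),
`connFacts_of_datum` (`FinalOrd2`), `connFacts_of_assembly` (`AssembleMainN9`).
-/
import Mathlib
import Fermat.Agent.ORD.IFACEN.AssembleMainN9

set_option autoImplicit false
set_option linter.unusedSectionVars false
set_option linter.style.longLine false

namespace Fermat.Agent.MP.FINAL.ConnPart6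

open AlgebraicCurve ModularCurve IntermediateField Fermat.Agent.X0.FF Fermat.Agent.RR.LSpace
open Fermat.Agent.ORD.ANN.Side3
open Fermat.Agent.ORD.SEMIRED.SemiRedDatum9 Fermat.Agent.ORD.SEMIRED.ToSemiRed9
open Fermat.Agent.ORD.KERN.KerDefs9 Fermat.Agent.ORD.KERN.KerN9 Fermat.Agent.ORD.KERN.KerGalN9
open Fermat.Agent.ORD.NSN.NSInputN9 Fermat.Agent.ORD.NSN.NSExistsN9
open Fermat.Agent.ORD.ANN.Inertial3 Fermat.Agent.ORD.ANN.InertialPic3
open Fermat.Agent.ORD.ALG.OrdP7 Fermat.Agent.ORD.CONN.ConnWur6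
open Fermat.Agent.ORD.INSTN.KapInst7 Fermat.Agent.ORD.INSTN.KapSys7
open Fermat.Agent.ORD.GLUEN.RationalN7
open Fermat.Agent.ORD.IFACEN.SmoothAtlas8 Fermat.Agent.ORD.IFACEN.AssembleN9
open Fermat.Agent.ORD.FINAL.LevelOrd0 Fermat.Agent.ORD.FINAL.FinalOrd0
open Fermat.Agent.FF.BASE.ApproxGen2 Fermat.Agent.FF.BASE.Place2
open Fermat.Agent.FF.LEVEL.Transfer0 Fermat.Agent.FF.FINAL.Final0
open Fermat.Agent.FF.FINAL.Discharge2 GaloisRep
open Fermat.Agent.TW.FLAT.FlatModule6 Fermat.Agent.FF.HOPF.Tors6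

noncomputable section

/-- **the connected part of `J₀(N)[p^k]`**: the three facts proved by programme ORD. -/
structure ConnFacts (p : ℕ) [Fact p.Prime] (N : ℕ) [NeZero N] (k : ℕ)
    {κ Ft : Type} [Field κ] [Field Ft] [Algebra κ Ft] {ι E : Type}
    (𝔻 : SemiRedDatum Qb (X0.FF N) κ Ft ι E) : Prop where
  /-- the kernel of reduction is stable under inertia -/
  stab : ∀ γ ∈ Iv p, ∀ x ∈ kerRed 𝔻,
    arithmeticGalois (modularFunctionFieldFull N) γ • x ∈ kerRed 𝔻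
  /-- (i) inertia acts trivially modulo the connected part -/
  triv : ∀ σ ∈ Iv p, ∀ x : Submodule.torsionBy ℤ (JZero N) ((p : ℤ) ^ k),
    torsAct N ((p : ℤ) ^ k) σ x - x ∈ connPart p N k 𝔻
  /-- (CONN) the connected part is connected -/
  conn : Conn (Iv p) (torsAct N ((p : ℤ) ^ k)) (connPart p N k 𝔻)

variable {p : ℕ} [Fact p.Prime] {N : ℕ} [NeZero N] {k : ℕ}

/-- the connected part is stable under inertia. -/
theorem ConnFacts.stab_connPart {κ Ft : Type} [Field κ] [Field Ft] [Algebra κ Ft] {ι E : Type}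
    {𝔻 : SemiRedDatum Qb (X0.FF N) κ Ft ι E} (h : ConnFacts p N k 𝔻) :
    ∀ σ ∈ Iv p, ∀ x ∈ connPart p N k 𝔻, torsAct N ((p : ℤ) ^ k) σ x ∈ connPart p N k 𝔻 := by
  intro σ hσ x hx
  rw [mem_connPart] at hx ⊢
  exact h.stab σ hσ _ hx

/-- `TorsOrd` from the three facts. -/
theorem ConnFacts.torsOrd {κ Ft : Type} [Field κ] [Field Ft] [Algebra κ Ft] {ι E : Type}
    {𝔻 : SemiRedDatum Qb (X0.FF N) κ Ft ι E} (h : ConnFacts p N k 𝔻) : TorsOrd N p k (Iv p) :=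
  OrdP.of_conn (connPart p N k 𝔻) h.triv h.conn

/-- **layer `FinalOrd0`.** -/
theorem connFacts_of_semiRedDatum (hp2 : p ≠ 2)
    {κ Ft : Type} [Field κ] [Field Ft] [Algebra κ Ft] {ι E : Type} [Finite ι] [Nonempty ι]
    [CharP κ p] [PerfectRing κ p]
    (𝔻 : SemiRedDatum Qb (X0.FF N) κ Ft ι E) (h𝔻A : 𝔻.B.A = padicPlace p)
    {g : ℕ} (S : NSSystemN 𝔻 g)
    (hRR : ∀ E' : Divisor Qb (X0.FF N), Divisor.degree E' = g →
      ∃ f : X0.FF N, f ≠ 0 ∧ ∀ P, -(E' P) ≤ P.ord f)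
    (hinert : ∀ γ ∈ Iv p, Inertial (toSemiRed 𝔻) (arithmeticGalois (modularFunctionFieldFull N) γ))
    (hstab : ∀ γ ∈ Iv p, ∀ x ∈ kerRed 𝔻,
      arithmeticGalois (modularFunctionFieldFull N) γ • x ∈ kerRed 𝔻)
    (hmain : ∀ {M : Type} [AddCommGroup M] [Finite M] (act : ↥(Iv p) → M → M)
      (emb : M →+ Pic0 Qb (X0.FF N)), Function.Injective emb →
      (∀ (γ : ↥(Iv p)) (x : M), emb (act γ x) = rhoI p N γ • emb x) →
      (∀ x : M, emb x ∈ kerRed 𝔻) →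
      ∃ S0 : Set (M → Qb), ApproxGen (Wur p) (padicPlace p).toSubring act S0 ∧
        ∀ s ∈ S0, ∀ x : M, s x ∈ (padicPlace p).nonunits) :
    ConnFacts p N k 𝔻 := by
  have hne : ((p : ℤ) ^ k) ≠ 0 :=
    pow_ne_zero k (Int.natCast_ne_zero.2 (Fact.out : p.Prime).ne_zero)
  have hfin : Finite (Submodule.torsionBy ℤ (JZero N) ((p : ℤ) ^ k)) := finite_tors N _ hne
  set M0 := connPart p N k 𝔻 with hM0
  have hstab0 : ∀ σ ∈ Iv p, ∀ x ∈ M0, torsAct N ((p : ℤ) ^ k) σ x ∈ M0 := by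
    intro σ hσ x hx
    rw [hM0, mem_connPart] at hx ⊢
    exact hstab σ hσ _ hx
  refine ⟨hstab, ?_, ?_⟩
  · intro σ hσ x
    rw [mem_connPart]
    have hx : p ^ k • (x : JZero N) = 0 := by
      have h := x.2
      rw [Submodule.mem_torsionBy_iff] at h
      rw [← natCast_zsmul]
      push_cast
      exact h
    obtain ⟨T, hT⟩ := exists_kap_eq_smul_sub S hRR (hinert σ hσ) (x : JZero N) k hx
    have : ((torsAct N ((p : ℤ) ^ k) σ x - x : Submodule.torsionBy ℤ (JZero N) ((p : ℤ) ^ k)) :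
        JZero N) = S.kap T := by
      rw [← hT]
      rfl
    rw [this]
    exact kap_mem_kerRed S T
  · have : Finite M0 := Finite.of_injective
      (fun x : M0 => (x : Submodule.torsionBy ℤ (JZero N) ((p : ℤ) ^ k))) Subtype.val_injective
    let act0 : ↥(Iv p) → M0 → M0 := fun γ x =>
      ⟨torsAct N ((p : ℤ) ^ k) γ.1 x.1, hstab0 γ.1 γ.2 x.1 x.2⟩
    let emb : M0 →+ Pic0 Qb (X0.FF N) :=
      ((Submodule.torsionBy ℤ (JZero N) ((p : ℤ) ^ k)).subtype.toAddMonoidHom).comp M0.subtype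
    obtain ⟨S0, hS0, hS0m⟩ := hmain act0 emb
      (fun x y h => Subtype.ext (Subtype.ext h)) (fun γ x => rfl) (fun x => x.2)
    exact conn_subgroup_of_approxGen p hp2 M0 hstab0 (fun x _ => torsAct_one N _ x)
      (fun σ _ τ _ x _ => torsAct_mul N _ σ τ x) (fun σ _ x _ y _ => torsAct_add N _ σ x y)
      hS0 hS0m

/-- **layer `FinalOrd1`.** -/
theorem connFacts_of_psOut (hp2 : p ≠ 2)
    {κ Ft : Type} [Field κ] [Field Ft] [Algebra κ Ft] {ι E : Type} [Finite ι] [Nonempty ι]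
    [CharP κ p] [PerfectRing κ p]
    (𝔻 : SemiRedDatum Qb (X0.FF N) κ Ft ι E) (h𝔻A : 𝔻.B.A = padicPlace p)
    {g : ℕ} (S : NSSystemN 𝔻 g)
    (hRR : ∀ E' : Divisor Qb (X0.FF N), Divisor.degree E' = g →
      ∃ f : X0.FF N, f ≠ 0 ∧ ∀ P, -(E' P) ≤ P.ord f)
    (hinert : ∀ γ ∈ Iv p, Inertial (toSemiRed 𝔻) (arithmeticGalois (modularFunctionFieldFull N) γ))
    (compat : ∀ γ : ↥(Iv p), DiscCompatN 𝔻 (rhoI p N γ))
    (fixes : ∀ γ : ↥(Iv p), FixesN S (rhoI p N γ))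
    (hPS : PSOutN (kapSys S hRR)) :
    ConnFacts p N k 𝔻 := by
  have hP := placeHyp p
  haveI : Infinite ↥𝔻.B.A := by rw [h𝔻A]; exact hP.infinite_A
  refine connFacts_of_semiRedDatum hp2 𝔻 h𝔻A S hRR hinert ?_ ?_
  · intro γ hγ x hx
    exact smul_mem_kerRed S hRR (compat ⟨γ, hγ⟩) (fixes ⟨γ, hγ⟩) hx
  · intro M _ _ act emb emb_inj emb_act hker
    obtain ⟨S0, h0, h0m⟩ := exists_approxGen_kerRed (W := ↥(Wur p)) S hRR (rhoI p N)
      (fun γ a => rfl) (by rw [h𝔻A]; exact hP.hΓA) compat fixes act emb emb_inj emb_act hker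
      (by rw [h𝔻A]; exact hP.hsmall) (by rw [h𝔻A]; exact hP.hrank)
      (by rw [h𝔻A]; exact hP.hWA) hP.hWinj (by rw [h𝔻A]; exact hP.hWfix) hPS
    have h0m' : ∀ s ∈ S0, ∀ x : M, s x ∈ 𝔻.B.A.nonunits := by
      intro s hs x
      obtain ⟨c, hc⟩ := h0m s hs x
      rw [hc, ValuationSubring.mem_nonunits_iff_exists_mem_maximalIdeal]
      exact ⟨(c : 𝔻.B.A).2, c.2⟩
    rw [h𝔻A] at h0 h0m'
    exact ⟨S0, h0, h0m'⟩

/-- **layer `FinalOrd2`.** -/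
theorem connFacts_of_datum (hp2 : p ≠ 2)
    {κ Ft : Type} [Field κ] [Field Ft] [Algebra κ Ft] {ι E : Type} [Finite ι] [Nonempty ι]
    [Finite E] [CharP κ p] [PerfectRing κ p] [Infinite κ]
    (𝔻 : SemiRedDatum Qb (X0.FF N) κ Ft ι E) (h𝔻A : 𝔻.B.A = padicPlace p)
    {x : X0.FF N} (hx : IsGen Qb x)
    (hlink : DLink 𝔻) (hlift : LiftsMatched 𝔻) (hconn : GraphConn 𝔻)
    (hinert : ∀ γ ∈ Iv p, Inertial (toSemiRed 𝔻) (arithmeticGalois (modularFunctionFieldFull N) γ))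
    (triv : ∀ γ ∈ Iv p, ∀ P : Place Qb (X0.FF N),
      𝔻.r (arithmeticGalois (modularFunctionFieldFull N) γ • P) = 𝔻.r P)
    (Bad : Set (ι × Place κ Ft)) (hBad : Bad.Finite)
    (hunif : ∀ (v : ι) (Q : Place κ Ft), 𝔻.IsSm v Q → (v, Q) ∉ Bad →
      ∃ u : 𝔻.G v, 𝔻.PoleFree (u : X0.FF N) v Q ∧ Q.ord (𝔻.red v u) = 1 ∧
        ∀ γ ∈ Iv p, arithmeticGalois (modularFunctionFieldFull N) γ • (u : X0.FF N) = (u : X0.FF N)) :
    ConnFacts p N k 𝔻 := by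
  haveI := Fermat.Agent.X0.HasCanDivInst.hasCanonicalDivisor N
  have hP := placeHyp p
  have hns : ∀ I : NSInputN 𝔻 (genus Qb (X0.FF N)), I.IsNonSpecial :=
    fun I => Fermat.Agent.ORD.NSN.NonSpecialN2.nonspecialN hx hlift hconn I
  have triv' : ∀ (γ : ↥(Iv p)) (P : Place Qb (X0.FF N)), 𝔻.r (rhoI p N γ • P) = 𝔻.r P :=
    fun γ P => triv γ.1 γ.2 P
  obtain ⟨S, hS⟩ := Fermat.Agent.ORD.INSTN.MainN7.exists_admissible (rhoI p N) hx hlink hns triv'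
    Bad hBad (fun v Q hQ hB => by
      obtain ⟨u, h1, h2, h3⟩ := hunif v Q hQ hB
      exact ⟨u, h1, h2, fun γ => h3 γ.1 γ.2⟩)
  have hRR : ∀ E' : Divisor Qb (X0.FF N), Divisor.degree E' = (genus Qb (X0.FF N) : ℤ) →
      ∃ f : X0.FF N, f ≠ 0 ∧ ∀ P, -(E' P) ≤ P.ord f :=
    fun E' hE' => Fermat.Agent.FF.INST.RRInst0.hRR_of_isGen hx E' hE'
  have hrank : ∀ w : 𝔻.B.A, w ≠ 0 → ∀ c : 𝔻.B.A, ¬ IsUnit c → ∃ n : ℕ, c ^ n ∈ Ideal.span {w} := by
    rw [h𝔻A]; exact hP.hrank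
  have hPS := Fermat.Agent.ORD.FAMN.CloseN3.psOutN_all hx hlink hns hrank hRR S
  exact connFacts_of_psOut hp2 𝔻 h𝔻A S hRR hinert
    (fun γ P P' h => by rw [triv' γ P, triv' γ P', h]) hS hPS

universe uP

/-- **layer `AssembleMainN9`.** -/
theorem connFacts_of_assembly (hp2 : p ≠ 2)
    {κ Ft : Type} [Field κ] [Field Ft] [Algebra κ Ft] {ι E : Type} [Finite ι] [Nonempty ι]
    [Finite E] [IsAlgClosed κ] [CharP κ p]
    {B : Base Qb κ} (hB : B.A = padicPlace p)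
    (𝔇 : AssemblyData.{0, 0, 0, 0, 0, 0, uP} B (X0.FF N) Ft ι E)
    {x : X0.FF N} (hx : IsGen Qb x)
    (hlift : LiftsMatched 𝔇.toSemiRedDatum) (hconn : GraphConn 𝔇.toSemiRedDatum)
    (hinert : ∀ γ ∈ Iv p, Inertial (toSemiRed 𝔇.toSemiRedDatum)
      (arithmeticGalois (modularFunctionFieldFull N) γ))
    (hcentre : ∀ γ ∈ Iv p, ∀ P : Place Qb (X0.FF N),
      𝔇.𝔸.centre (arithmeticGalois (modularFunctionFieldFull N) γ • P) = 𝔇.𝔸.centre P)
    (t : ι → X0.FF N) (htG : ∀ v, t v ∈ (𝔇.𝔸.side v).G)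
    (hgen : ∀ v, IsGen κ ((𝔇.𝔸.side v).red ⟨t v, htG v⟩))
    (hsep : ∀ v, Algebra.IsSeparable κ⟮(𝔇.𝔸.side v).red ⟨t v, htG v⟩⟯ Ft)
    (ht : ∀ v, ∀ γ ∈ Iv p,
      arithmeticGalois (modularFunctionFieldFull N) γ • t v = t v) :
    ConnFacts p N k 𝔇.toSemiRedDatum := by
  have hp : p.Prime := Fact.out
  have hExp : ExpChar κ p := ExpChar.prime hp
  have hPerf : PerfectRing κ p := PerfectField.toPerfectRing p
  have hA : B.A.LiesOverPrime p := by rw [hB]; exact liesOverPrime p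
  have hI : ∀ γ ∈ Iv p, γ ∈ B.A.inertiaSubgroupIn ℚ := by rw [hB]; exact fun γ h => h
  obtain ⟨Bad, hBad, hunif⟩ := Fermat.Agent.ORD.IFACEN.UnifN9.exists_bad_unifN 𝔇.toSemiRedDatum
    (fun v => ⟨t v, htG v⟩) hgen hsep
    (fun u => ∀ γ ∈ Iv p, arithmeticGalois (modularFunctionFieldFull N) γ • u = u)
    (fun a b ha hb γ hγ => by rw [smul_sub, ha γ hγ, hb γ hγ]) ht
    (fun c => by
      obtain ⟨a, ha, hfix⟩ :=
        Fermat.Agent.ORD.IFACEN.AssembleMainN9.exists_teich_base B hp hA c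
      refine ⟨a, ha, fun γ hγ => ?_⟩
      rw [SemilinearAut.smul_algebraMap]
      congr 1
      exact hfix γ (hI γ hγ))
  exact connFacts_of_datum hp2 𝔇.toSemiRedDatum hB hx
    (Fermat.Agent.ORD.IFACEN.DLinkAtlas6.dlink_of_atlas hx 𝔇.toSemiRedDatum 𝔇.𝔸 rfl rfl)
    hlift hconn hinert
    (fun γ hγ P => 𝔇.r_smul_of_centre (hcentre γ hγ) P)
    Bad hBad (fun v Q _ hQ => hunif v Q hQ)

end

end Fermat.Agent.MP.FINAL.ConnPart6
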