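/-
Programme MP (row 38 via S44), chapter FINAL (helper6): **the abstract final lemma (F).**

`J` an additive group with an action `act : G → J → J` of a group `G ∋ I` ("inertia"), `K ≤ J` the
kernel of reduction, `Old ≤ J` the `p`-old subgroup, `V ≤ J[p]`.

* `le_of_decomp` : if every `y ∈ V` decomposes as `y = a + c` (`a ∈ Old`, `c ∈ K`) and an additive
  endomorphism `Ξ` kills `Old`, preserves `K` and acts on `V` by an integer `u` prime to `p`, then
  `V ≤ K`;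
* `false_of_conn` : a connected subgroup `C` (`OrdP7.Conn`) cannot contain a subgroup `V` with a
  proper subgroup `L < V` such that `I` acts trivially on `V / L`;
* `false_of_inputs` : the two together, with `C = K ⊓ J[p]`-style hypothesis `hKC`.
-/
import Mathlib
import Fermat.Agent.ORD.ALG.OrdP7

set_option autoImplicit false

namespace Fermat.Agent.MP.FINAL.FinalLemma6

open Fermat.Agent.ORD.ALG.OrdP7

variable {J : Type*} [AddCommGroup J]

/-- **`V ⊂ kerRed`**: `unit • y = Ξ y = Ξ a + Ξ c = Ξ c ∈ K`. -/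
theorem le_of_decomp (p : ℕ) (K Old V : AddSubgroup J) (Ξ : J →+ J) (u : ℤ)
    (hu : IsCoprime u (p : ℤ))
    (hV : ∀ y ∈ V, (p : ℤ) • y = 0)
    (hΞV : ∀ y ∈ V, Ξ y = u • y)
    (hΞO : ∀ a ∈ Old, Ξ a = 0)
    (hΞK : ∀ c ∈ K, Ξ c ∈ K)
    (hdec : ∀ y ∈ V, ∃ a ∈ Old, ∃ c ∈ K, y = a + c) : V ≤ K := by
  intro y hy
  obtain ⟨a, ha, c, hc, e⟩ := hdec y hy
  have h1 : u • y ∈ K := by
    rw [← hΞV y hy, e, map_add, hΞO a ha, zero_add]
    exact hΞK c hc
  obtain ⟨s, t, hst⟩ := hu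
  have h2 : y = s • (u • y) + t • ((p : ℤ) • y) := by
    rw [smul_smul, smul_smul, ← add_smul, hst, one_smul]
  rw [h2, hV y hy, smul_zero, add_zero]
  exact K.zsmul_mem h1 s

variable {G : Type*} [Group G]

/-- **a connected subgroup has no subquotient `V / L ≠ 0` with trivial inertia action.** -/
theorem false_of_conn (I : Subgroup G) (act : G → J → J) (C V L : AddSubgroup J)
    (hC : Conn I act C) (hVC : V ≤ C) (hLV : L ≤ V)
    (htriv : ∀ σ ∈ I, ∀ y ∈ V, act σ y - y ∈ L) (hne : ¬ V ≤ L) : False :=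
  hne (hC L V hLV hVC htriv)

/-- **(F)**: the final contradiction. -/
theorem false_of_inputs (p : ℕ) (I : Subgroup G) (act : G → J → J)
    (K Old C V L : AddSubgroup J) (Ξ : J →+ J) (u : ℤ)
    (hu : IsCoprime u (p : ℤ))
    (hV : ∀ y ∈ V, (p : ℤ) • y = 0)
    (hΞV : ∀ y ∈ V, Ξ y = u • y)
    (hΞO : ∀ a ∈ Old, Ξ a = 0)
    (hΞK : ∀ c ∈ K, Ξ c ∈ K)
    (hdec : ∀ y ∈ V, ∃ a ∈ Old, ∃ c ∈ K, y = a + c)
    (hKC : ∀ y ∈ K, (p : ℤ) • y = 0 → y ∈ C)
    (hC : Conn I act C) (hLV : L ≤ V)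
    (htriv : ∀ σ ∈ I, ∀ y ∈ V, act σ y - y ∈ L) (hne : ¬ V ≤ L) : False :=
  false_of_conn I act C V L hC
    (fun y hy => hKC y (le_of_decomp p K Old V Ξ u hu hV hΞV hΞO hΞK hdec hy) (hV y hy))
    hLV htriv hne

end Fermat.Agent.MP.FINAL.FinalLemma6
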