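/-
Programme MP (row 38 via S44), chapter FINAL (helper6): **the interface of the final step.**

Everything lives on `J := JZero N = Pic0 Qb (X0.FF N)` with its `G_ℚ`-action `σ • x`, a semistable
datum `𝔻` of `X₀(N)` along `padicPlace p` and the facts `hcf : ConnFacts p N 1 𝔻` of programme ORD
(for `N = M₀ * p`, `4 ∣ M₀`, `p ∤ M₀`, `p` odd: `MainDatum6.datum`, `MainDatum6.connFacts_datum`).

* `smul_sub_mem_kerRed` : `σ y − y ∈ kerRed 𝔻` for `σ ∈ I_p`, `y ∈ J[p]`   (property (i));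
* `mem_kerRed_of_smul_eq` : an eigenvector `y ∈ J[p]` of some `σ ∈ I_p` with eigenvalue `a ≢ 1 (p)`
  lies in `kerRed 𝔻` (this gives `ℓ₀ ∈ kerRed ∩ J[p]`, the hypothesis of (T3), from the shape (C)
  of the inertia action);
* `false_of_le_kerRed` : **(F)** `V ≤ J[p] ∩ kerRed 𝔻`, `L < V`, `I_p` trivial on `V / L` ⟹ `False`;
* `le_kerRed_of_decomp` : `V ≤ kerRed 𝔻` from the decomposition `y = a + c` and the operator `Ξ`
  (v2 of the plan: `Ξ(Old) ⊆ kerRed`, not `= 0`);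
* `decomp_of_tau` : the decomposition from `τ` : (T3) `τ(y)` constant on `V`, (W) `V` is fixed by an
  operator `W` with `τ(W y)_e = − τ(y)_{s e}`, (α-weak) `τ(y) = 0 ⟹ y ∈ Old + kerRed`;
* **`false_of_final_inputs`**, **`false_of_tau_inputs`** : the consumers.
-/
import Mathlib
import Fermat.Agent.MP.FINAL.ConnPart6
import Fermat.Agent.MP.FINAL.FinalLemma6

set_option autoImplicit false
set_option linter.unusedSectionVars false
set_option linter.style.longLine false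

namespace Fermat.Agent.MP.FINAL.Iface6

open AlgebraicCurve ModularCurve Fermat.Agent.X0.FF
open Fermat.Agent.ORD.SEMIRED.SemiRedDatum9
open Fermat.Agent.ORD.KERN.KerDefs9 Fermat.Agent.ORD.KERN.KerN9
open Fermat.Agent.ORD.ALG.OrdP7
open Fermat.Agent.ORD.FINAL.LevelOrd0 Fermat.Agent.ORD.FINAL.FinalOrd0
open Fermat.Agent.FF.BASE.Place2 Fermat.Agent.FF.LEVEL.Transfer0 GaloisRep
open Fermat.Agent.TW.FLAT.FlatModule6
open Fermat.Agent.MP.FINAL.ConnPart6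

noncomputable section

variable {p : ℕ} [Fact p.Prime] {N : ℕ} [NeZero N]
  {κ Ft : Type} [Field κ] [Field Ft] [Algebra κ Ft] {ι E : Type}
  {𝔻 : SemiRedDatum Qb (X0.FF N) κ Ft ι E}

/-- a `p`-torsion point as an element of the torsion submodule `J[p^1]`. -/
def toTors (y : JZero N) (hy : (p : ℤ) • y = 0) :
    Submodule.torsionBy ℤ (JZero N) ((p : ℤ) ^ 1) :=
  ⟨y, by rw [Submodule.mem_torsionBy_iff, pow_one]; exact hy⟩

@[simp] theorem coe_toTors (y : JZero N) (hy : (p : ℤ) • y = 0) :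
    ((toTors y hy : Submodule.torsionBy ℤ (JZero N) ((p : ℤ) ^ 1)) : JZero N) = y := rfl

theorem smul_tors (x : Submodule.torsionBy ℤ (JZero N) ((p : ℤ) ^ 1)) :
    (p : ℤ) • (x : JZero N) = 0 := by
  have h := x.2
  rw [Submodule.mem_torsionBy_iff] at h
  simpa using h

/-- a point killed by `n` with a multiple `u • y` in `K`, `u` prime to `n`, lies in `K`. -/
theorem mem_of_isCoprime_smul {J : Type*} [AddCommGroup J] (K : AddSubgroup J) {u n : ℤ}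
    (hu : IsCoprime u n) {y : J} (hn : n • y = 0) (h : u • y ∈ K) : y ∈ K := by
  obtain ⟨s, t, hst⟩ := hu
  have h2 : y = s • (u • y) + t • (n • y) := by
    rw [smul_smul, smul_smul, ← add_smul, hst, one_smul]
  rw [h2, hn, smul_zero, add_zero]
  exact K.zsmul_mem h s

/-- **(i)** : inertia acts trivially on `J[p]` modulo the kernel of reduction. -/
theorem smul_sub_mem_kerRed (hcf : ConnFacts p N 1 𝔻) {σ : GQ} (hσ : σ ∈ Iv p)
    (y : JZero N) (hy : (p : ℤ) • y = 0) : σ • y - y ∈ kerRed 𝔻 := by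
  have h := hcf.triv σ hσ (toTors y hy)
  rw [mem_connPart] at h
  exact h

/-- an eigenvector in `J[p]` of an element of inertia with eigenvalue `≢ 1 mod p` lies in the
kernel of reduction. -/
theorem mem_kerRed_of_smul_eq (hcf : ConnFacts p N 1 𝔻) {σ : GQ} (hσ : σ ∈ Iv p)
    (y : JZero N) (hy : (p : ℤ) • y = 0) (a : ℤ) (h : σ • y = a • y)
    (ha : IsCoprime (a - 1) (p : ℤ)) : y ∈ kerRed 𝔻 := by
  refine mem_of_isCoprime_smul (kerRed 𝔻) ha hy ?_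
  have h1 := smul_sub_mem_kerRed hcf hσ y hy
  have h2 : (a - 1) • y = σ • y - y := by
    rw [h, sub_smul, one_smul]
  rw [h2]
  exact h1

/-- **(F)** : the connected part contains no `V` with a proper subgroup `L` such that inertia acts
trivially on `V / L`. -/
theorem false_of_le_kerRed (hcf : ConnFacts p N 1 𝔻) (V L : AddSubgroup (JZero N))
    (hVp : ∀ y ∈ V, (p : ℤ) • y = 0) (hVK : V ≤ kerRed 𝔻) (hLV : L ≤ V)
    (htriv : ∀ σ ∈ Iv p, ∀ y ∈ V, σ • y - y ∈ L) (hne : ¬ V ≤ L) : False := by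
  let sub : Submodule.torsionBy ℤ (JZero N) ((p : ℤ) ^ 1) →+ JZero N :=
    (Submodule.torsionBy ℤ (JZero N) ((p : ℤ) ^ 1)).subtype.toAddMonoidHom
  have hle : V.comap sub ≤ L.comap sub := by
    refine hcf.conn (L.comap sub) (V.comap sub) (AddSubgroup.comap_mono hLV) ?_ ?_
    · intro x hx
      rw [mem_connPart]
      exact hVK hx
    · intro σ hσ x hx
      exact htriv σ hσ _ hx
  exact hne fun y hy => hle (show toTors y (hVp y hy) ∈ V.comap sub from hy)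

/-- **`V ⊂ kerRed`** (v2): `u • y = Ξ y = Ξ a + Ξ c ∈ K`. -/
theorem le_of_decomp' {J : Type*} [AddCommGroup J] (p : ℕ) (K Old V : AddSubgroup J) (Ξ : J →+ J)
    (u : ℤ) (hu : IsCoprime u (p : ℤ))
    (hV : ∀ y ∈ V, (p : ℤ) • y = 0)
    (hΞV : ∀ y ∈ V, Ξ y = u • y)
    (hΞO : ∀ a ∈ Old, Ξ a ∈ K)
    (hΞK : ∀ c ∈ K, Ξ c ∈ K)
    (hdec : ∀ y ∈ V, ∃ a ∈ Old, ∃ c ∈ K, y = a + c) : V ≤ K := by
  intro y hy
  obtain ⟨a, ha, c, hc, e⟩ := hdec y hy
  have h1 : u • y ∈ K := by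
    rw [← hΞV y hy, e, map_add]
    exact K.add_mem (hΞO a ha) (hΞK c hc)
  exact mem_of_isCoprime_smul K hu (hV y hy) h1

/-- **the consumer of the final step** : on `J₀(N)` with the facts of ORD for `𝔻`, there is no
`V ≤ J[p]` with
* a proper subgroup `L < V` such that inertia acts trivially on `V / L`      [HECKE (B) + PEU (C)],
* an additive operator `Ξ`, `= u` (prime to `p`) on `V`, `Ξ(Old) ⊆ kerRed 𝔻`, `Ξ(kerRed 𝔻) ⊆
  kerRed 𝔻`                                                         [HECKE (A),(D) + FUNC + FIN],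
* `V ⊆ Old + kerRed 𝔻`                                               [T3 + (W) + TAU (α-weak)]. -/
theorem false_of_final_inputs (hcf : ConnFacts p N 1 𝔻) (V L Old : AddSubgroup (JZero N))
    (hVp : ∀ y ∈ V, (p : ℤ) • y = 0) (hLV : L ≤ V) (hne : ¬ V ≤ L)
    (htriv : ∀ σ ∈ Iv p, ∀ y ∈ V, σ • y - y ∈ L)
    (Ξ : JZero N →+ JZero N) (u : ℤ) (hu : IsCoprime u (p : ℤ))
    (hΞV : ∀ y ∈ V, Ξ y = u • y)
    (hΞO : ∀ a ∈ Old, Ξ a ∈ kerRed 𝔻)
    (hΞK : ∀ c ∈ kerRed 𝔻, Ξ c ∈ kerRed 𝔻)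
    (hdec : ∀ y ∈ V, ∃ a ∈ Old, ∃ c ∈ kerRed 𝔻, y = a + c) : False :=
  false_of_le_kerRed hcf V L hVp
    (le_of_decomp' p (kerRed 𝔻) Old V Ξ u hu hVp hΞV hΞO hΞK hdec) hLV htriv hne

/-- **the decomposition from `τ`** : if `τ(y)` is constant on `V` (T3), `V` is fixed by an operator
`W` which acts on `τ` by `τ(W y)_e = − τ(y)_{s e}` (W), and `τ(y) = 0 ⟹ y ∈ Old + K` (α-weak), then
`V ⊆ Old + K` (`p` odd, at least one edge). -/
theorem decomp_of_tau {J : Type*} [AddCommGroup J] (hp2 : p ≠ 2) {E : Type*} [Nonempty E]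
    (K Old V : AddSubgroup J) (τ : J → E → ZMod p) (W : J → J)
    (hT3 : ∀ y ∈ V, ∃ c : ZMod p, ∀ e, τ y e = c)
    (hWV : ∀ y ∈ V, W y = y)
    (hW : ∀ y ∈ V, ∃ s : E → E, ∀ e, τ (W y) e = - τ y (s e))
    (hα : ∀ y ∈ V, (∀ e, τ y e = 0) → ∃ a ∈ Old, ∃ c ∈ K, y = a + c) :
    ∀ y ∈ V, ∃ a ∈ Old, ∃ c ∈ K, y = a + c := by
  intro y hy
  refine hα y hy ?_
  obtain ⟨c, hc⟩ := hT3 y hy
  obtain ⟨s, hs⟩ := hW y hy
  obtain ⟨e₀⟩ := (inferInstance : Nonempty E)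
  have h1 : c = -c := by
    have := hs e₀
    rwa [hWV y hy, hc, hc] at this
  have h2 : (2 : ZMod p) * c = 0 := by
    rw [two_mul]
    nth_rewrite 1 [h1]
    exact neg_add_cancel c
  have hp : p.Prime := Fact.out
  have h3 : (2 : ZMod p) ≠ 0 := by
    intro h
    have : ((2 : ℕ) : ZMod p) = 0 := by exact_mod_cast h
    rw [ZMod.natCast_eq_zero_iff] at this
    exact hp2 ((Nat.prime_dvd_prime_iff_eq hp Nat.prime_two).mp this)
  have hc0 : c = 0 := (mul_eq_zero.mp h2).resolve_left h3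
  intro e
  rw [hc e, hc0]

/-- **the consumer, `τ`-form.** -/
theorem false_of_tau_inputs (hp2 : p ≠ 2) (hcf : ConnFacts p N 1 𝔻) [Nonempty E]
    (V L Old : AddSubgroup (JZero N))
    (hVp : ∀ y ∈ V, (p : ℤ) • y = 0) (hLV : L ≤ V) (hne : ¬ V ≤ L)
    (htriv : ∀ σ ∈ Iv p, ∀ y ∈ V, σ • y - y ∈ L)
    (Ξ : JZero N →+ JZero N) (u : ℤ) (hu : IsCoprime u (p : ℤ))
    (hΞV : ∀ y ∈ V, Ξ y = u • y)
    (hΞO : ∀ a ∈ Old, Ξ a ∈ kerRed 𝔻)
    (hΞK : ∀ c ∈ kerRed 𝔻, Ξ c ∈ kerRed 𝔻)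
    (τ : JZero N → E → ZMod p) (W : JZero N → JZero N)
    (hT3 : ∀ y ∈ V, ∃ c : ZMod p, ∀ e, τ y e = c)
    (hWV : ∀ y ∈ V, W y = y)
    (hW : ∀ y ∈ V, ∃ s : E → E, ∀ e, τ (W y) e = - τ y (s e))
    (hα : ∀ y ∈ V, (∀ e, τ y e = 0) → ∃ a ∈ Old, ∃ c ∈ kerRed 𝔻, y = a + c) : False :=
  false_of_final_inputs hcf V L Old hVp hLV hne htriv Ξ u hu hΞV hΞO hΞK
    (decomp_of_tau hp2 (kerRed 𝔻) Old V τ W hT3 hWV hW hα)

end

end Fermat.Agent.MP.FINAL.Iface6
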