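/-
Programme MP (row 38 via S44), chapter FINAL (helper6): **the concrete semistable datum of
`X₀(M₀ p)` along `padicPlace p`** (`p` odd, `4 ∣ M₀`, `p ∤ M₀`) **with its connected part.**

* `connFacts_of_pieces`, `connFacts_of_sides'`, `connFacts_of_hyp` : the layers `GlueMainN9`,
  `GlueTwoN9`, `TwoCompInst6` of programme ORD with the conclusion `ConnPart6.ConnFacts`;
* `nodesHyp`, `hypMain` : the hypothesis-free node systems / `TwoCompHyp` of the N34 model;
* **`datum hpM h4 hp2 : SemiRedDatum Qb (X0.FF (M₀ * p)) κ Ft (Fin 2) (Nodes hpM h4 hp2)`** — THE datum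
  on which the chapters T3 / TAU / FUNC are instantiated; `datum_side_zero/one`, `datum_src`,
  `datum_tgt`, `datum_B` (all `rfl`);
* **`connFacts_datum`** : `ConnFacts p (M₀ * p) k (datum hpM h4 hp2)` for every `k`.
-/
import Mathlib
import Fermat.Agent.MP.FINAL.ConnPart6
import Fermat.Agent.ORD.FINAL.OrdinaryMain6

set_option autoImplicit false
set_option linter.unusedSectionVars false
set_option linter.style.longLine false
set_option synthInstance.maxHeartbeats 400000

open AlgebraicCurve ModularCurve IntermediateField Fermat.Agent.X0.FF Fermat.Agent.RR.LSpace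
open Fermat.Agent.ORD.ANN.Side3 Fermat.Agent.ORD.ANN.Inertial3
open Fermat.Agent.ORD.SEMIRED.SemiRedDatum9 Fermat.Agent.ORD.SEMIRED.ToSemiRed9
open Fermat.Agent.ORD.NSN.NSInputN9 Fermat.Agent.ORD.NSN.NSExistsN9
open Fermat.Agent.ORD.IFACEN.SmoothAtlas8 Fermat.Agent.ORD.IFACEN.AssembleN9
open Fermat.Agent.ORD.FINAL.LevelOrd0
open Fermat.Agent.FF.BASE.Place2 Fermat.Agent.FF.FINAL.Final0 GaloisRep
open Fermat.Agent.TW.FLAT.FlatModule6
open Fermat.Agent.RED.Interface4 Fermat.Agent.ES.RED.ChartIntegralA1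
open Fermat.Agent.ORD.IFACEN.GaussBad1 Fermat.Agent.ORD.IFACEN.SideOne1
open Fermat.Agent.ORD.IFACEN.SideTwo1
open Fermat.Agent.ORD.IFACEN.CoordOne9 Fermat.Agent.ORD.IFACEN.CoordTwo9
open Fermat.Agent.ES.N34.FrickeFK8
open Fermat.Agent.MP.FINAL.ConnPart6

noncomputable section

namespace Fermat.Agent.MP.FINAL.MainDatum6

local instance (priority := 100000) algKF6m (A : ValuationSubring Qbar) (M : ℕ) [NeZero M] :
    Algebra (kA A) ↥(modularFunctionFieldFullC (kA A) M) := inferInstance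

section Layers

variable (p M' : ℕ) [Fact p.Prime] [NeZero M'] (hpM : ¬ p ∣ M') (h4 : 4 ∣ M')

/-- **layer `GlueMainN9`.** -/
theorem connFacts_of_pieces (hp2 : p ≠ 2) (k : ℕ) {E : Type} [Finite E]
    (side2 : Side (base (padicPlace p)) ↥(Fbar (M' * p)) ↥(modularFunctionFieldFullC (kA (padicPlace p)) M'))
    (hG2 : ∀ y : ↥(Fbar (M' * p)), y ∈ side2.G ↔ frickeBar (M' * p) y ∈ G1 p M' (padicPlace p) (liesOverPrime p) hpM h4)
    (hred2 : ∀ (y : ↥(Fbar (M' * p))) (hy : y ∈ side2.G),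
      side2.red ⟨y, hy⟩ = red1 p M' (padicPlace p) (liesOverPrime p) hpM h4 ⟨frickeBar (M' * p) y, (hG2 y).mp hy⟩)
    (𝔇 : AssemblyData (base (padicPlace p)) ↥(Fbar (M' * p))
      ↥(modularFunctionFieldFullC (kA (padicPlace p)) M') (Fin 2) E)
    (hs0 : 𝔇.𝔸.side 0 = side1 p M' (padicPlace p) (liesOverPrime p) hpM h4)
    (hs1 : 𝔇.𝔸.side 1 = side2)
    {x : ↥(Fbar (M' * p))} (hx : IsGen Qbar x)
    (hlift : LiftsMatched 𝔇.toSemiRedDatum) (hconn : GraphConn 𝔇.toSemiRedDatum)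
    (hinert : ∀ γ ∈ Iv p, Inertial (toSemiRed 𝔇.toSemiRedDatum)
      (arithmeticGalois (modularFunctionFieldFull (M' * p)) γ))
    (hcentre : ∀ γ ∈ Iv p, ∀ P : Place Qbar ↥(Fbar (M' * p)),
      𝔇.𝔸.centre (arithmeticGalois (modularFunctionFieldFull (M' * p)) γ • P) = 𝔇.𝔸.centre P) :
    ConnFacts p (M' * p) k 𝔇.toSemiRedDatum := by
  have hp : p.Prime := Fact.out
  have : IsAlgClosed (kA (padicPlace p)) :=
    Fermat.Agent.ORD.IFACEN.ResidueFacts7.isAlgClosed_residueField (padicPlace p)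
  have : CharP (kA (padicPlace p)) p :=
    Fermat.Agent.ORD.IFACEN.ResidueFacts7.charP_residueField (padicPlace p) hp (liesOverPrime p)
  have hG0 : tBad p M' h4 ∈ (𝔇.𝔸.side 0).G := by
    rw [hs0]; exact (t1 p M' (padicPlace p) (liesOverPrime p) hpM h4).2
  have hG1 : tBad2 p M' h4 ∈ (𝔇.𝔸.side 1).G := by
    rw [hs1]; exact tBad2_mem p M' (padicPlace p) (liesOverPrime p) hpM h4 hG2
  have hr0 : (𝔇.𝔸.side 0).red ⟨tBad p M' h4, hG0⟩ =
      red1 p M' (padicPlace p) (liesOverPrime p) hpM h4 (t1 p M' (padicPlace p) (liesOverPrime p) hpM h4) :=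
    Fermat.Agent.ORD.IFACEN.GlueMainN9.red_congr hs0 _ hG0
  have hr1 : (𝔇.𝔸.side 1).red ⟨tBad2 p M' h4, hG1⟩ =
      side2.red (t2 p M' (padicPlace p) (liesOverPrime p) hpM h4 hG2) :=
    Fermat.Agent.ORD.IFACEN.GlueMainN9.red_congr hs1 _ hG1
  refine connFacts_of_assembly (N := M' * p) hp2
    (B := base (padicPlace p)) rfl 𝔇 hx hlift hconn hinert hcentre
    ![tBad p M' h4, tBad2 p M' h4] (fun v => by fin_cases v; exact hG0; exact hG1) ?_ ?_ ?_
  · intro v
    fin_cases v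
    · show IsGen _ ((𝔇.𝔸.side 0).red ⟨tBad p M' h4, hG0⟩)
      rw [hr0]
      exact isGen_red1_t1 p M' (padicPlace p) (liesOverPrime p) hpM h4
    · show IsGen _ ((𝔇.𝔸.side 1).red ⟨tBad2 p M' h4, hG1⟩)
      rw [hr1]
      exact isGen_red2_t2 p M' (padicPlace p) (liesOverPrime p) hpM h4 side2.red hG2 hred2
  · intro v
    fin_cases v
    · exact Fermat.Agent.ORD.IFACEN.GlueMainN9.isSeparable_congr hr0
        (isSeparable_red1_t1 p M' (padicPlace p) (liesOverPrime p) hpM h4)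
    · exact Fermat.Agent.ORD.IFACEN.GlueMainN9.isSeparable_congr hr1
        (isSeparable_red2_t2 p M' (padicPlace p) (liesOverPrime p) hpM h4 side2.red hG2 hred2)
  · intro v γ _
    fin_cases v
    · exact smul_tBad p M' h4 γ
    · exact smul_tBad2 p M' h4 γ

variable {p M'}

/-- **layer `GlueTwoN9`.** -/
theorem connFacts_of_sides' (hp2 : p ≠ 2) (k : ℕ) {E : Type} [Finite E]
    (𝔇 : AssemblyData (base (padicPlace p)) ↥(Fbar (M' * p))
      ↥(modularFunctionFieldFullC (kA (padicPlace p)) M') (Fin 2) E)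
    (hs0 : 𝔇.𝔸.side 0 = side1 p M' (padicPlace p) (liesOverPrime p) hpM h4)
    (hs1 : 𝔇.𝔸.side 1 = side2 p M' (padicPlace p) (liesOverPrime p) hpM h4)
    (hsrc : ∀ e, 𝔇.src e = 0) (htgt : ∀ e, 𝔇.tgt e = 1)
    (hlift : LiftsMatched 𝔇.toSemiRedDatum)
    (hinert : ∀ γ ∈ Iv p, Inertial (toSemiRed 𝔇.toSemiRedDatum)
      (arithmeticGalois (modularFunctionFieldFull (M' * p)) γ))
    (hcentre : ∀ γ ∈ Iv p, ∀ P : Place Qbar ↥(Fbar (M' * p)),
      𝔇.𝔸.centre (arithmeticGalois (modularFunctionFieldFull (M' * p)) γ • P) = 𝔇.𝔸.centre P) :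
    ConnFacts p (M' * p) k 𝔇.toSemiRedDatum := by
  have := Fermat.Agent.X0.HasCanDivInst.hasCanonicalDivisor (M' * p)
  have hx := Fermat.Agent.RED.TOP.FbarFacts20.isGen_j (M' * p)
  have hconn : GraphConn 𝔇.toSemiRedDatum :=
    Fermat.Agent.ORD.IFACEN.RiemannGE7.graphConn_of_two_of_isGen 𝔇.toSemiRedDatum hx
      (0 : Fin 2) 1 (by decide) (fun v => by fin_cases v <;> simp) hsrc htgt
  exact connFacts_of_pieces p M' hpM h4 hp2 k
    (side2 p M' (padicPlace p) (liesOverPrime p) hpM h4)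
    (Fermat.Agent.ORD.IFACEN.GlueTwoN9.mem_side2_iff p M' (padicPlace p) (liesOverPrime p) hpM h4)
    (Fermat.Agent.ORD.IFACEN.GlueTwoN9.side2_red_eq p M' (padicPlace p) (liesOverPrime p) hpM h4)
    𝔇 hs0 hs1 hx hlift hconn hinert hcentre

end Layers

/-! ### the layer `TwoCompInst6` -/

section HypLayer

open Fermat.Agent.ORD.IFACEN.InertSide6 Fermat.Agent.ORD.IFACEN.CentreInert6
  Fermat.Agent.ORD.IFACEN.TwoCompInst6 Fermat.Agent.ORD.IFACEN.TwoCompAssembly3

variable {p M' : ℕ} [Fact p.Prime] [NeZero M'] (hpM : ¬ p ∣ M') (h4 : 4 ∣ M')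

/-- **layer `TwoCompInst6`**: the concrete `TwoCompHyp` along `padicPlace p` with finitely many
nodes and a reduced special fibre gives the facts on the connected part of its datum. -/
theorem connFacts_of_hyp (hp2 : p ≠ 2) (k : ℕ)
    (H : Hyp p M' (padicPlace p) (liesOverPrime (ℓ := p)) hpM h4) [Finite H.Nodes]
    (hred : RedHyp p M' (padicPlace p) (liesOverPrime (ℓ := p)) hpM h4) :
    ConnFacts p (M' * p) k
      (H.assembly (lHyp_bad (M' * p))
        (lHyp_good p M' (padicPlace p) (liesOverPrime (ℓ := p)) hpM h4)).toSemiRedDatum := by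
  have HL : LHyp Qbar ↥(Fbar (M' * p)) := lHyp_bad (M' * p)
  have Hk := lHyp_good p M' (padicPlace p) (liesOverPrime (ℓ := p)) hpM h4
  have : IsAlgClosed (kA (padicPlace p)) :=
    Fermat.Agent.ES.KRON.KronInst10.isAlgClosed_residueField (padicPlace p)
  have : Infinite (kA (padicPlace p)) := inferInstance
  have : Nonempty H.Nodes := Fermat.Agent.ORD.IFACEN.GlueTwoN9.nonempty_edges (H.assembly HL Hk)
  refine connFacts_of_sides' hpM h4 hp2 k (H.assembly HL Hk)
    rfl rfl (fun _ => rfl) (fun _ => rfl) ?_ ?_ ?_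
  · exact Fermat.Agent.ORD.IFACEN.PtsLift9.liftsMatched (H.ptsData HL Hk) 0 1 (fun _ => rfl)
      (fun _ => rfl) (fun v => by fin_cases v <;> simp) (fun _ => Iff.rfl) (fun _ => Iff.rfl)
  · intro γ hγ
    exact inertial_of_two p M' (padicPlace p) (liesOverPrime (ℓ := p)) hpM h4 hγ _ rfl rfl
  · intro γ hγ P
    exact hcentre_of_inertSide (H.ptsData HL Hk) _
      (valuation_base p M' (padicPlace p) hγ)
      (res_of_mem_inertia (padicPlace p) hγ (M' * p))
      (smul_tBad p M' h4 γ)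
      (smul_mem_chart0_iff (padicPlace p) hγ p M' h4)
      (smul_mem_chart1_iff (padicPlace p) hγ p M' h4)
      0 1
      (inertSide_side1 p M' (padicPlace p) (liesOverPrime (ℓ := p)) hpM h4 hγ)
      (inertSide_side2 p M' (padicPlace p) (liesOverPrime (ℓ := p)) hpM h4 hγ)
      hred.1 hred.2 P

end HypLayer

/-! ### the concrete datum -/

section Datum

open Fermat.Agent.ORD.IFACEN.TwoCompInst6 Fermat.Agent.ORD.IFACEN.TwoCompAssembly3
  Fermat.Agent.ORD.IFACEN.MainOfNodes6 Fermat.Agent.ES.N34.ModelInput13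

variable {p M' : ℕ} [Fact p.Prime] [NeZero M'] (hpM : ¬ p ∣ M') (h4 : 4 ∣ M') (hp2 : p ≠ 2)

include hp2 in
/-- the nodes of the two-chart model of `X₀(M' p)` along `padicPlace p` (hypothesis-free). -/
theorem nodesHyp : NodesHyp hpM h4 :=
  Fermat.Agent.ORD.IFACEN.MainOfHor6.nodesHyp_of_hor_S hpM h4
    (Fermat.Agent.ORD.FINAL.FinalOrd6.modelInput hpM h4 hp2)
    (Fermat.Agent.ORD.FINAL.OrdinaryMain6.hor0 p M' (padicPlace p) (liesOverPrime (ℓ := p)) hpM h4 _)
    (Fermat.Agent.ORD.FINAL.OrdinaryMain6.hor1 p M' (padicPlace p) (liesOverPrime (ℓ := p)) hpM h4 _)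
    (fun i 𝔪 _ => Fermat.Agent.ORD.NODE.SmoothInst4.hS_zero p M' (padicPlace p)
      (liesOverPrime (ℓ := p)) (Fermat.Agent.ORD.FINAL.FinalOrd6.modelInput hpM h4 hp2) i 𝔪)
    (fun i 𝔪 _ => Fermat.Agent.ORD.NODE.SmoothInst4.hS_one p M' (padicPlace p)
      (liesOverPrime (ℓ := p)) (Fermat.Agent.ORD.FINAL.FinalOrd6.modelInput hpM h4 hp2) i 𝔪)

include hp2 in
/-- **the two-component hypotheses of the model of `X₀(M' p)` along `padicPlace p`**
(hypothesis-free: `p` odd, `4 ∣ M'`, `p ∤ M'`). -/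
theorem hypMain : Hyp p M' (padicPlace p) (liesOverPrime (ℓ := p)) hpM h4 :=
  Fermat.Agent.ORD.IFACEN.SmoothPts8.twoCompHyp p M' (padicPlace p) (liesOverPrime (ℓ := p))
    hpM h4 (Fermat.Agent.ORD.FINAL.FinalOrd6.modelInput hpM h4 hp2) (nodesHyp hpM h4 hp2)

include hp2 in
/-- the special fibre is reduced at every closed point. -/
theorem redHyp : RedHyp p M' (padicPlace p) (liesOverPrime (ℓ := p)) hpM h4 :=
  ⟨fun χ hχ => Fermat.Agent.ORD.IFACEN.SmoothPts8.reduced0 p M' (padicPlace p)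
      (liesOverPrime (ℓ := p)) hpM h4 (Fermat.Agent.ORD.FINAL.FinalOrd6.modelInput hpM h4 hp2) χ hχ,
    fun χ hχ => Fermat.Agent.ORD.IFACEN.SmoothPts8.reduced1 p M' (padicPlace p)
      (liesOverPrime (ℓ := p)) hpM h4 (Fermat.Agent.ORD.FINAL.FinalOrd6.modelInput hpM h4 hp2) χ hχ⟩

/-- **the nodes** (= supersingular points) of the model: the closed points of the two-chart model
lying on both components. -/
abbrev Nodes : Type := (hypMain hpM h4 hp2).Nodes

instance finite_nodes : Finite (Nodes hpM h4 hp2) :=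
  Fermat.Agent.ORD.IFACEN.PtsFinite1.finite_edges
    ((hypMain hpM h4 hp2).ptsData (lHyp_bad (M' * p))
      (lHyp_good p M' (padicPlace p) (liesOverPrime (ℓ := p)) hpM h4))
    0 1 (fun _ => rfl) (fun _ => rfl)

/-- the assembly data (atlas, annuli, …) of the model. -/
def assembly : AssemblyData (base (padicPlace p)) ↥(Fbar (M' * p))
    ↥(modularFunctionFieldFullC (kA (padicPlace p)) M') (Fin 2) (Nodes hpM h4 hp2) :=
  (hypMain hpM h4 hp2).assembly (lHyp_bad (M' * p))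
    (lHyp_good p M' (padicPlace p) (liesOverPrime (ℓ := p)) hpM h4)

/-- **THE semistable datum of `X₀(M' p)` along `padicPlace p`** : two components
(`0` = through `∞`, Gauss ring `G1`; `1` = through the cusp `0`, Gauss ring `G2 = W(G1)`), both
with residue function field `k · F̃_{M'}`, edges = the nodes, every edge from `0` to `1`. -/
def datum : SemiRedDatum Qbar ↥(Fbar (M' * p)) (kA (padicPlace p))
    ↥(modularFunctionFieldFullC (kA (padicPlace p)) M') (Fin 2) (Nodes hpM h4 hp2) :=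
  (assembly hpM h4 hp2).toSemiRedDatum

theorem datum_eq : datum hpM h4 hp2 = (assembly hpM h4 hp2).toSemiRedDatum := rfl

theorem assembly_side_zero :
    (assembly hpM h4 hp2).𝔸.side 0 = side1 p M' (padicPlace p) (liesOverPrime (ℓ := p)) hpM h4 := rfl

theorem assembly_side_one :
    (assembly hpM h4 hp2).𝔸.side 1 = side2 p M' (padicPlace p) (liesOverPrime (ℓ := p)) hpM h4 := rfl

theorem datum_src (e : Nodes hpM h4 hp2) : (datum hpM h4 hp2).src e = 0 := rfl

theorem datum_tgt (e : Nodes hpM h4 hp2) : (datum hpM h4 hp2).tgt e = 1 := rfl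

/-- **the facts on the connected part of the datum.** -/
theorem connFacts_datum (k : ℕ) : ConnFacts p (M' * p) k (datum hpM h4 hp2) :=
  have : Finite (hypMain hpM h4 hp2).Nodes := finite_nodes hpM h4 hp2
  connFacts_of_hyp hpM h4 hp2 k (hypMain hpM h4 hp2) (redHyp hpM h4 hp2)

end Datum

end Fermat.Agent.MP.FINAL.MainDatum6
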