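/-
Programme MP (row 38 via S44), chapter FINAL (helper6): **the final step on the concrete datum.**

`N₃ = M₀ * p` (`p` odd, `4 ∣ M₀`, `p ∤ M₀`), `𝔻 = MainDatum6.datum hpM h4 hp2` (two components, edges
`MainDatum6.Nodes hpM h4 hp2`), `K = kerRed 𝔻 ≤ J₀(N₃)(ℚ̄)`.

* `nonempty_nodes` : the model has a node;
* `mem_kerRed_datum_of_smul_eq` : an eigenvector in `J[p]` of `σ ∈ I_p` with eigenvalue `≢ 1 (p)` lies
  in `K` (gives `ℓ₀ ∈ K` for (T3));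
* **`false_of_inputs_datum`** : `Iface6.false_of_final_inputs` on `𝔻`;
* **`false_of_tau_datum`** : `Iface6.false_of_tau_inputs` on `𝔻` (`τ` indexed by `Nodes`).
-/
import Mathlib
import Fermat.Agent.MP.FINAL.Iface6
import Fermat.Agent.MP.FINAL.MainDatum6

set_option autoImplicit false
set_option linter.unusedSectionVars false
set_option linter.style.longLine false
set_option synthInstance.maxHeartbeats 400000

namespace Fermat.Agent.MP.FINAL.FinalMain6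

open AlgebraicCurve ModularCurve Fermat.Agent.X0.FF
open Fermat.Agent.ORD.KERN.KerN9
open Fermat.Agent.FF.BASE.Place2 GaloisRep
open Fermat.Agent.TW.FLAT.FlatModule6
open Fermat.Agent.MP.FINAL.ConnPart6 Fermat.Agent.MP.FINAL.Iface6 Fermat.Agent.MP.FINAL.MainDatum6

noncomputable section

variable {p M₀ : ℕ} [Fact p.Prime] [NeZero M₀] (hpM : ¬ p ∣ M₀) (h4 : 4 ∣ M₀) (hp2 : p ≠ 2)

/-- the model has a node. -/
theorem nonempty_nodes : Nonempty (Nodes hpM h4 hp2) :=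
  Fermat.Agent.ORD.IFACEN.GlueTwoN9.nonempty_edges (assembly hpM h4 hp2)

/-- **(i)** on the concrete datum. -/
theorem smul_sub_mem_kerRed_datum {σ : GQ} (hσ : σ ∈ Iv p)
    (y : JZero (M₀ * p)) (hy : (p : ℤ) • y = 0) : σ • y - y ∈ kerRed (datum hpM h4 hp2) :=
  smul_sub_mem_kerRed (connFacts_datum hpM h4 hp2 1) hσ y hy

/-- an eigenvector in `J[p]` of an element of inertia with eigenvalue `≢ 1 mod p` lies in the kernel
of reduction of the concrete datum. -/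
theorem mem_kerRed_datum_of_smul_eq {σ : GQ} (hσ : σ ∈ Iv p)
    (y : JZero (M₀ * p)) (hy : (p : ℤ) • y = 0) (a : ℤ) (h : σ • y = a • y)
    (ha : IsCoprime (a - 1) (p : ℤ)) : y ∈ kerRed (datum hpM h4 hp2) :=
  mem_kerRed_of_smul_eq (connFacts_datum hpM h4 hp2 1) hσ y hy a h ha

/-- the kernel of reduction of the concrete datum is stable under inertia. -/
theorem smul_mem_kerRed_datum {σ : GQ} (hσ : σ ∈ Iv p)
    {x : JZero (M₀ * p)} (hx : x ∈ kerRed (datum hpM h4 hp2)) :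
    σ • x ∈ kerRed (datum hpM h4 hp2) :=
  (connFacts_datum hpM h4 hp2 1).stab σ hσ x hx

/-- **the final step on the concrete datum.** -/
theorem false_of_inputs_datum (V L Old : AddSubgroup (JZero (M₀ * p)))
    (hVp : ∀ y ∈ V, (p : ℤ) • y = 0) (hLV : L ≤ V) (hne : ¬ V ≤ L)
    (htriv : ∀ σ ∈ Iv p, ∀ y ∈ V, σ • y - y ∈ L)
    (Ξ : JZero (M₀ * p) →+ JZero (M₀ * p)) (u : ℤ) (hu : IsCoprime u (p : ℤ))
    (hΞV : ∀ y ∈ V, Ξ y = u • y)
    (hΞO : ∀ a ∈ Old, Ξ a ∈ kerRed (datum hpM h4 hp2))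
    (hΞK : ∀ c ∈ kerRed (datum hpM h4 hp2), Ξ c ∈ kerRed (datum hpM h4 hp2))
    (hdec : ∀ y ∈ V, ∃ a ∈ Old, ∃ c ∈ kerRed (datum hpM h4 hp2), y = a + c) : False :=
  false_of_final_inputs (connFacts_datum hpM h4 hp2 1) V L Old hVp hLV hne htriv Ξ u hu hΞV hΞO hΞK
    hdec

/-- **the final step on the concrete datum, `τ`-form.** -/
theorem false_of_tau_datum (V L Old : AddSubgroup (JZero (M₀ * p)))
    (hVp : ∀ y ∈ V, (p : ℤ) • y = 0) (hLV : L ≤ V) (hne : ¬ V ≤ L)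
    (htriv : ∀ σ ∈ Iv p, ∀ y ∈ V, σ • y - y ∈ L)
    (Ξ : JZero (M₀ * p) →+ JZero (M₀ * p)) (u : ℤ) (hu : IsCoprime u (p : ℤ))
    (hΞV : ∀ y ∈ V, Ξ y = u • y)
    (hΞO : ∀ a ∈ Old, Ξ a ∈ kerRed (datum hpM h4 hp2))
    (hΞK : ∀ c ∈ kerRed (datum hpM h4 hp2), Ξ c ∈ kerRed (datum hpM h4 hp2))
    (τ : JZero (M₀ * p) → Nodes hpM h4 hp2 → ZMod p) (W : JZero (M₀ * p) → JZero (M₀ * p))
    (hT3 : ∀ y ∈ V, ∃ c : ZMod p, ∀ e, τ y e = c)
    (hWV : ∀ y ∈ V, W y = y)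
    (hW : ∀ y ∈ V, ∃ s : Nodes hpM h4 hp2 → Nodes hpM h4 hp2, ∀ e, τ (W y) e = - τ y (s e))
    (hα : ∀ y ∈ V, (∀ e, τ y e = 0) →
      ∃ a ∈ Old, ∃ c ∈ kerRed (datum hpM h4 hp2), y = a + c) : False :=
  have : Nonempty (Nodes hpM h4 hp2) := nonempty_nodes hpM h4 hp2
  false_of_tau_inputs hp2 (connFacts_datum hpM h4 hp2 1) V L Old hVp hLV hne htriv Ξ u hu hΞV hΞO
    hΞK τ W hT3 hWV hW hα

end

end Fermat.Agent.MP.FINAL.FinalMain6
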