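/-
Programme MP (row 38 via S44), chapter FINAL (helper6): **export of the working facts of ORD on a
semistable datum of `X₀(N)` along `padicPlace p`**, and on the concrete datum `MainDatum6.datum`.

Programme ORD produced, INSIDE the proofs of `FinalOrd2` / `AssembleMainN9`, all the tools one needs
to work with `kerRed 𝔻` : Riemann's inequality `hRR`, non-speciality `hns`, `DLink`, the `I_p`-fixed
uniformizers off a finite set, admissible (`I_p`-fixed) NS systems, `PSOutN`.  Here they are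
packaged as `structure DatumFacts p N 𝔻 : Prop` (layers `datumFacts_of_assembly`,
`datumFacts_of_pieces`, `datumFacts_of_sides'`, `datumFacts_of_hyp`) and proved for
`MainDatum6.datum hpM h4 hp2` (**`datumFacts_datum`**).

Consequences (`[Finite ι] [Nonempty ι] [Finite E] [Infinite κ]`):
* `DatumFacts.hns`, `DatumFacts.hRR`;
* `DatumFacts.exists_nsSystem Bad hBad` : an NS system with `genus` centres off any finite set;
* `DatumFacts.exists_admissible Bad hBad` : the same, fixed by inertia (`FixesN S (rhoI p N γ)`);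
* `DatumFacts.exists_system_hRR` : `∃ g (S : NSSystemN 𝔻 g), hRR` (the form asked by MP/TAU).
-/
import Mathlib
import Fermat.Agent.MP.FINAL.MainDatum6

set_option autoImplicit false
set_option linter.unusedSectionVars false
set_option linter.style.longLine false
set_option synthInstance.maxHeartbeats 400000

open AlgebraicCurve ModularCurve IntermediateField Fermat.Agent.X0.FF Fermat.Agent.RR.LSpace
open Fermat.Agent.ORD.ANN.Side3 Fermat.Agent.ORD.ANN.Inertial3
open Fermat.Agent.ORD.SEMIRED.SemiRedDatum9 Fermat.Agent.ORD.SEMIRED.ToSemiRed9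
open Fermat.Agent.ORD.KERN.KerDefs9 Fermat.Agent.ORD.KERN.KerN9 Fermat.Agent.ORD.KERN.KerGalN9
open Fermat.Agent.ORD.NSN.NSInputN9 Fermat.Agent.ORD.NSN.NSExistsN9
open Fermat.Agent.ORD.IFACEN.SmoothAtlas8 Fermat.Agent.ORD.IFACEN.AssembleN9
open Fermat.Agent.ORD.FINAL.LevelOrd0
open Fermat.Agent.FF.BASE.Place2 Fermat.Agent.FF.FINAL.Final0 GaloisRep
open Fermat.Agent.TW.FLAT.FlatModule6
open Fermat.Agent.RED.Interface4 Fermat.Agent.ES.RED.ChartIntegralA1
open Fermat.Agent.ORD.IFACEN.GaussBad1 Fermat.Agent.ORD.IFACEN.SideOne1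
open Fermat.Agent.ORD.IFACEN.SideTwo1
open Fermat.Agent.ORD.IFACEN.CoordOne9 Fermat.Agent.ORD.IFACEN.CoordTwo9
open Fermat.Agent.ES.N34.FrickeFK8
open Fermat.Agent.MP.FINAL.MainDatum6

noncomputable section

namespace Fermat.Agent.MP.FINAL.DatumFacts6

local instance (priority := 100000) algKF6d (A : ValuationSubring Qbar) (M : ℕ) [NeZero M] :
    Algebra (kA A) ↥(modularFunctionFieldFullC (kA A) M) := inferInstance

/-- **the working facts of ORD on a semistable datum of `X₀(N)` along `padicPlace p`.** -/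
structure DatumFacts (p : ℕ) [Fact p.Prime] (N : ℕ) [NeZero N]
    {κ Ft : Type} [Field κ] [Field Ft] [Algebra κ Ft] {ι E : Type}
    (𝔻 : SemiRedDatum Qb (X0.FF N) κ Ft ι E) : Prop where
  /-- the base valuation ring is `padicPlace p` -/
  hA : 𝔻.B.A = padicPlace p
  /-- a generator in Noether position -/
  hx : ∃ x : X0.FF N, IsGen Qb x
  hlink : DLink 𝔻
  hlift : LiftsMatched 𝔻
  hconn : GraphConn 𝔻
  /-- inertia is inertial on the datum -/
  hinert : ∀ γ ∈ Iv p, Inertial (toSemiRed 𝔻) (arithmeticGalois (modularFunctionFieldFull N) γ)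
  /-- inertia fixes every residue disc and every annulus -/
  triv : ∀ γ ∈ Iv p, ∀ P : Place Qb (X0.FF N),
    𝔻.r (arithmeticGalois (modularFunctionFieldFull N) γ • P) = 𝔻.r P
  /-- inertia-fixed uniformizers at all smooth points off a finite set -/
  hunif : ∃ Bad : Set (ι × Place κ Ft), Bad.Finite ∧
    ∀ (v : ι) (Q : Place κ Ft), 𝔻.IsSm v Q → (v, Q) ∉ Bad →
      ∃ u : 𝔻.G v, 𝔻.PoleFree (u : X0.FF N) v Q ∧ Q.ord (𝔻.red v u) = 1 ∧
        ∀ γ ∈ Iv p, arithmeticGalois (modularFunctionFieldFull N) γ • (u : X0.FF N) = (u : X0.FF N)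

section Consequences

variable {p : ℕ} [Fact p.Prime] {N : ℕ} [NeZero N]
  {κ Ft : Type} [Field κ] [Field Ft] [Algebra κ Ft] {ι E : Type}
  {𝔻 : SemiRedDatum Qb (X0.FF N) κ Ft ι E}

/-- **Riemann's inequality** in the form used by `KerN9`. -/
theorem DatumFacts.hRR (h : DatumFacts p N 𝔻) :
    ∀ E' : Divisor Qb (X0.FF N), Divisor.degree E' = (genus Qb (X0.FF N) : ℤ) →
      ∃ f : X0.FF N, f ≠ 0 ∧ ∀ P, -(E' P) ≤ P.ord f := by
  haveI := Fermat.Agent.X0.HasCanDivInst.hasCanonicalDivisor N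
  obtain ⟨x, hx⟩ := h.hx
  exact fun E' hE' => Fermat.Agent.FF.INST.RRInst0.hRR_of_isGen hx E' hE'

/-- **non-speciality** of all the inputs of (NS). -/
theorem DatumFacts.hns [Finite ι] [Nonempty ι] [Finite E] (h : DatumFacts p N 𝔻) :
    haveI := Fermat.Agent.X0.HasCanDivInst.hasCanonicalDivisor N
    ∀ I : NSInputN 𝔻 (genus Qb (X0.FF N)), I.IsNonSpecial := by
  haveI := Fermat.Agent.X0.HasCanDivInst.hasCanonicalDivisor N
  obtain ⟨x, hx⟩ := h.hx
  exact fun I => Fermat.Agent.ORD.NSN.NonSpecialN2.nonspecialN hx h.hlift h.hconn I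

/-- `triv` for the subgroup `Iv p` through `rhoI`. -/
theorem DatumFacts.triv' (h : DatumFacts p N 𝔻) (γ : ↥(Iv p)) (P : Place Qb (X0.FF N)) :
    𝔻.r (rhoI p N γ • P) = 𝔻.r P :=
  h.triv γ.1 γ.2 P

/-- inertia is compatible with the discs. -/
theorem DatumFacts.discCompat (h : DatumFacts p N 𝔻) (γ : ↥(Iv p)) :
    DiscCompatN 𝔻 (rhoI p N γ) :=
  fun P P' hPP' => by rw [h.triv' γ P, h.triv' γ P', hPP']

/-- **an NS system with `genus` centres off a given finite set.** -/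
theorem DatumFacts.exists_nsSystem [Finite ι] [Nonempty ι] [Finite E] [Infinite κ]
    (h : DatumFacts p N 𝔻) (Bad : Set (ι × Place κ Ft)) (hBad : Bad.Finite) :
    haveI := Fermat.Agent.X0.HasCanDivInst.hasCanonicalDivisor N
    ∃ S : NSSystemN 𝔻 (genus Qb (X0.FF N)),
      (∀ i, (S.c i, S.Q i) ∉ Bad) ∧ (S.c0, S.Q0) ∉ Bad := by
  haveI := Fermat.Agent.X0.HasCanDivInst.hasCanonicalDivisor N
  obtain ⟨x, hx⟩ := h.hx
  exact Fermat.Agent.ORD.NSN.NSFinalN9.exists_nsSystemN hx h.hlink h.hns Bad hBad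

/-- **an admissible (`I_p`-fixed) NS system with `genus` centres off a given finite set.** -/
theorem DatumFacts.exists_admissible [Finite ι] [Nonempty ι] [Finite E] [Infinite κ]
    (h : DatumFacts p N 𝔻) (Bad : Set (ι × Place κ Ft)) (hBad : Bad.Finite) :
    haveI := Fermat.Agent.X0.HasCanDivInst.hasCanonicalDivisor N
    ∃ S : NSSystemN 𝔻 (genus Qb (X0.FF N)),
      (∀ i, (S.c i, S.Q i) ∉ Bad) ∧ (S.c0, S.Q0) ∉ Bad ∧
        ∀ γ : ↥(Iv p), FixesN S (rhoI p N γ) := by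
  haveI := Fermat.Agent.X0.HasCanDivInst.hasCanonicalDivisor N
  obtain ⟨Bad0, hBad0, hunif⟩ := h.hunif
  obtain ⟨S₁, hS₁, hS₁0⟩ := h.exists_nsSystem (Bad ∪ Bad0) (hBad.union hBad0)
  have key : ∀ i, ∃ (P : Place Qb (X0.FF N)) (u : 𝔻.G (S₁.c i)),
      (𝔻.comp (S₁.c i)).IsGoodUnif P (S₁.Q i) u ∧
      (∀ γ : ↥(Iv p), rhoI p N γ • P = P) ∧
        ∀ γ : ↥(Iv p), rhoI p N γ • (u : X0.FF N) = (u : X0.FF N) := by
    intro i
    obtain ⟨u, hpf, h1, hfix⟩ := hunif _ _ (S₁.isSm_Q i) (fun hb => hS₁ i (Or.inr hb))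
    have hfix' : ∀ γ : ↥(Iv p), rhoI p N γ • (u : X0.FF N) = (u : X0.FF N) :=
      fun γ => hfix γ.1 γ.2
    obtain ⟨P, hgood, hPfix⟩ := Fermat.Agent.ORD.INSTN.MainN7.exists_fixed_centre (rhoI p N)
      h.triv' (S₁.isSm_Q i) u hpf h1 hfix'
    exact ⟨P, u, hgood, hPfix, hfix'⟩
  choose P' u' good' hPfix hufix using key
  exact ⟨Fermat.Agent.ORD.INSTN.MainN7.recentre S₁ P' u' good',
    fun i hb => hS₁ i (Or.inl hb), fun hb => hS₁0 (Or.inl hb),
    fun γ => ⟨fun i => hPfix i γ, fun i => hufix i γ⟩⟩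

/-- **the form asked by MP/TAU** : some NS system together with Riemann's inequality. -/
theorem DatumFacts.exists_system_hRR [Finite ι] [Nonempty ι] [Finite E] [Infinite κ]
    (h : DatumFacts p N 𝔻) :
    ∃ (g : ℕ) (_ : NSSystemN 𝔻 g), ∀ E' : Divisor Qb (X0.FF N), Divisor.degree E' = (g : ℤ) →
      ∃ f : X0.FF N, f ≠ 0 ∧ ∀ P, -(E' P) ≤ P.ord f := by
  haveI := Fermat.Agent.X0.HasCanDivInst.hasCanonicalDivisor N
  obtain ⟨S, -, -⟩ := h.exists_nsSystem ∅ Set.finite_empty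
  exact ⟨genus Qb (X0.FF N), S, h.hRR⟩

end Consequences

/-! ### the layers -/

section Layers

universe uP

variable {p : ℕ} [Fact p.Prime] {N : ℕ} [NeZero N]

/-- **layer `AssembleMainN9`.** -/
theorem datumFacts_of_assembly
    {κ Ft : Type} [Field κ] [Field Ft] [Algebra κ Ft] {ι E : Type} [Finite ι] [Nonempty ι]
    [Finite E] [IsAlgClosed κ] [CharP κ p]
    {B : Base Qb κ} (hB : B.A = padicPlace p)
    (𝔇 : AssemblyData.{0, 0, 0, 0, 0, 0, uP} B (X0.FF N) Ft ι E)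
    {x : X0.FF N} (hx : IsGen Qb x)
    (hlift : LiftsMatched 𝔇.toSemiRedDatum) (hconn : GraphConn 𝔇.toSemiRedDatum)
    (hinert : ∀ γ ∈ Iv p, Inertial (toSemiRed 𝔇.toSemiRedDatum)
      (arithmeticGalois (modularFunctionFieldFull N) γ))
    (hcentre : ∀ γ ∈ Iv p, ∀ P : Place Qb (X0.FF N),
      𝔇.𝔸.centre (arithmeticGalois (modularFunctionFieldFull N) γ • P) = 𝔇.𝔸.centre P)
    (t : ι → X0.FF N) (htG : ∀ v, t v ∈ (𝔇.𝔸.side v).G)
    (hgen : ∀ v, IsGen κ ((𝔇.𝔸.side v).red ⟨t v, htG v⟩))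
    (hsep : ∀ v, Algebra.IsSeparable κ⟮(𝔇.𝔸.side v).red ⟨t v, htG v⟩⟯ Ft)
    (ht : ∀ v, ∀ γ ∈ Iv p,
      arithmeticGalois (modularFunctionFieldFull N) γ • t v = t v) :
    DatumFacts p N 𝔇.toSemiRedDatum := by
  have hp : p.Prime := Fact.out
  have hExp : ExpChar κ p := ExpChar.prime hp
  have hPerf : PerfectRing κ p := PerfectField.toPerfectRing p
  have hA : B.A.LiesOverPrime p := by rw [hB]; exact liesOverPrime p
  have hI : ∀ γ ∈ Iv p, γ ∈ B.A.inertiaSubgroupIn ℚ := by rw [hB]; exact fun γ h => h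
  obtain ⟨Bad, hBad, hunif⟩ := Fermat.Agent.ORD.IFACEN.UnifN9.exists_bad_unifN 𝔇.toSemiRedDatum
    (fun v => ⟨t v, htG v⟩) hgen hsep
    (fun u => ∀ γ ∈ Iv p, arithmeticGalois (modularFunctionFieldFull N) γ • u = u)
    (fun a b ha hb γ hγ => by rw [smul_sub, ha γ hγ, hb γ hγ]) ht
    (fun c => by
      obtain ⟨a, ha, hfix⟩ :=
        Fermat.Agent.ORD.IFACEN.AssembleMainN9.exists_teich_base B hp hA c
      refine ⟨a, ha, fun γ hγ => ?_⟩
      rw [SemilinearAut.smul_algebraMap]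
      congr 1
      exact hfix γ (hI γ hγ))
  exact
    { hA := hB
      hx := ⟨x, hx⟩
      hlink := Fermat.Agent.ORD.IFACEN.DLinkAtlas6.dlink_of_atlas hx 𝔇.toSemiRedDatum 𝔇.𝔸 rfl rfl
      hlift := hlift
      hconn := hconn
      hinert := hinert
      triv := fun γ hγ P => 𝔇.r_smul_of_centre (hcentre γ hγ) P
      hunif := ⟨Bad, hBad, fun v Q _ hQ => hunif v Q hQ⟩ }

end Layers

section Concrete

variable (p M' : ℕ) [Fact p.Prime] [NeZero M'] (hpM : ¬ p ∣ M') (h4 : 4 ∣ M')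

/-- **layer `GlueMainN9`.** -/
theorem datumFacts_of_pieces {E : Type} [Finite E]
    (side2 : Side (base (padicPlace p)) ↥(Fbar (M' * p)) ↥(modularFunctionFieldFullC (kA (padicPlace p)) M'))
    (hG2 : ∀ y : ↥(Fbar (M' * p)), y ∈ side2.G ↔ frickeBar (M' * p) y ∈ G1 p M' (padicPlace p) (liesOverPrime p) hpM h4)
    (hred2 : ∀ (y : ↥(Fbar (M' * p))) (hy : y ∈ side2.G),
      side2.red ⟨y, hy⟩ = red1 p M' (padicPlace p) (liesOverPrime p) hpM h4 ⟨frickeBar (M' * p) y, (hG2 y).mp hy⟩)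
    (𝔇 : AssemblyData (base (padicPlace p)) ↥(Fbar (M' * p))
      ↥(modularFunctionFieldFullC (kA (padicPlace p)) M') (Fin 2) E)
    (hs0 : 𝔇.𝔸.side 0 = side1 p M' (padicPlace p) (liesOverPrime p) hpM h4)
    (hs1 : 𝔇.𝔸.side 1 = side2)
    {x : ↥(Fbar (M' * p))} (hx : IsGen Qbar x)
    (hlift : LiftsMatched 𝔇.toSemiRedDatum) (hconn : GraphConn 𝔇.toSemiRedDatum)
    (hinert : ∀ γ ∈ Iv p, Inertial (toSemiRed 𝔇.toSemiRedDatum)
      (arithmeticGalois (modularFunctionFieldFull (M' * p)) γ))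
    (hcentre : ∀ γ ∈ Iv p, ∀ P : Place Qbar ↥(Fbar (M' * p)),
      𝔇.𝔸.centre (arithmeticGalois (modularFunctionFieldFull (M' * p)) γ • P) = 𝔇.𝔸.centre P) :
    DatumFacts p (M' * p) 𝔇.toSemiRedDatum := by
  have hp : p.Prime := Fact.out
  have : IsAlgClosed (kA (padicPlace p)) :=
    Fermat.Agent.ORD.IFACEN.ResidueFacts7.isAlgClosed_residueField (padicPlace p)
  have : CharP (kA (padicPlace p)) p :=
    Fermat.Agent.ORD.IFACEN.ResidueFacts7.charP_residueField (padicPlace p) hp (liesOverPrime p)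
  have hG0 : tBad p M' h4 ∈ (𝔇.𝔸.side 0).G := by
    rw [hs0]; exact (t1 p M' (padicPlace p) (liesOverPrime p) hpM h4).2
  have hG1 : tBad2 p M' h4 ∈ (𝔇.𝔸.side 1).G := by
    rw [hs1]; exact tBad2_mem p M' (padicPlace p) (liesOverPrime p) hpM h4 hG2
  have hr0 : (𝔇.𝔸.side 0).red ⟨tBad p M' h4, hG0⟩ =
      red1 p M' (padicPlace p) (liesOverPrime p) hpM h4 (t1 p M' (padicPlace p) (liesOverPrime p) hpM h4) :=
    Fermat.Agent.ORD.IFACEN.GlueMainN9.red_congr hs0 _ hG0
  have hr1 : (𝔇.𝔸.side 1).red ⟨tBad2 p M' h4, hG1⟩ =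
      side2.red (t2 p M' (padicPlace p) (liesOverPrime p) hpM h4 hG2) :=
    Fermat.Agent.ORD.IFACEN.GlueMainN9.red_congr hs1 _ hG1
  refine datumFacts_of_assembly (N := M' * p)
    (B := base (padicPlace p)) rfl 𝔇 hx hlift hconn hinert hcentre
    ![tBad p M' h4, tBad2 p M' h4] (fun v => by fin_cases v; exact hG0; exact hG1) ?_ ?_ ?_
  · intro v
    fin_cases v
    · show IsGen _ ((𝔇.𝔸.side 0).red ⟨tBad p M' h4, hG0⟩)
      rw [hr0]
      exact isGen_red1_t1 p M' (padicPlace p) (liesOverPrime p) hpM h4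
    · show IsGen _ ((𝔇.𝔸.side 1).red ⟨tBad2 p M' h4, hG1⟩)
      rw [hr1]
      exact isGen_red2_t2 p M' (padicPlace p) (liesOverPrime p) hpM h4 side2.red hG2 hred2
  · intro v
    fin_cases v
    · exact Fermat.Agent.ORD.IFACEN.GlueMainN9.isSeparable_congr hr0
        (isSeparable_red1_t1 p M' (padicPlace p) (liesOverPrime p) hpM h4)
    · exact Fermat.Agent.ORD.IFACEN.GlueMainN9.isSeparable_congr hr1
        (isSeparable_red2_t2 p M' (padicPlace p) (liesOverPrime p) hpM h4 side2.red hG2 hred2)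
  · intro v γ _
    fin_cases v
    · exact smul_tBad p M' h4 γ
    · exact smul_tBad2 p M' h4 γ

variable {p M'}

/-- **layer `GlueTwoN9`.** -/
theorem datumFacts_of_sides' {E : Type} [Finite E]
    (𝔇 : AssemblyData (base (padicPlace p)) ↥(Fbar (M' * p))
      ↥(modularFunctionFieldFullC (kA (padicPlace p)) M') (Fin 2) E)
    (hs0 : 𝔇.𝔸.side 0 = side1 p M' (padicPlace p) (liesOverPrime p) hpM h4)
    (hs1 : 𝔇.𝔸.side 1 = side2 p M' (padicPlace p) (liesOverPrime p) hpM h4)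
    (hsrc : ∀ e, 𝔇.src e = 0) (htgt : ∀ e, 𝔇.tgt e = 1)
    (hlift : LiftsMatched 𝔇.toSemiRedDatum)
    (hinert : ∀ γ ∈ Iv p, Inertial (toSemiRed 𝔇.toSemiRedDatum)
      (arithmeticGalois (modularFunctionFieldFull (M' * p)) γ))
    (hcentre : ∀ γ ∈ Iv p, ∀ P : Place Qbar ↥(Fbar (M' * p)),
      𝔇.𝔸.centre (arithmeticGalois (modularFunctionFieldFull (M' * p)) γ • P) = 𝔇.𝔸.centre P) :
    DatumFacts p (M' * p) 𝔇.toSemiRedDatum := by
  have := Fermat.Agent.X0.HasCanDivInst.hasCanonicalDivisor (M' * p)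
  have hx := Fermat.Agent.RED.TOP.FbarFacts20.isGen_j (M' * p)
  have hconn : GraphConn 𝔇.toSemiRedDatum :=
    Fermat.Agent.ORD.IFACEN.RiemannGE7.graphConn_of_two_of_isGen 𝔇.toSemiRedDatum hx
      (0 : Fin 2) 1 (by decide) (fun v => by fin_cases v <;> simp) hsrc htgt
  exact datumFacts_of_pieces p M' hpM h4
    (side2 p M' (padicPlace p) (liesOverPrime p) hpM h4)
    (Fermat.Agent.ORD.IFACEN.GlueTwoN9.mem_side2_iff p M' (padicPlace p) (liesOverPrime p) hpM h4)
    (Fermat.Agent.ORD.IFACEN.GlueTwoN9.side2_red_eq p M' (padicPlace p) (liesOverPrime p) hpM h4)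
    𝔇 hs0 hs1 hx hlift hconn hinert hcentre

open Fermat.Agent.ORD.IFACEN.InertSide6 Fermat.Agent.ORD.IFACEN.CentreInert6
  Fermat.Agent.ORD.IFACEN.TwoCompInst6 Fermat.Agent.ORD.IFACEN.TwoCompAssembly3

/-- **layer `TwoCompInst6`.** -/
theorem datumFacts_of_hyp
    (H : Hyp p M' (padicPlace p) (liesOverPrime (ℓ := p)) hpM h4) [Finite H.Nodes]
    (hred : RedHyp p M' (padicPlace p) (liesOverPrime (ℓ := p)) hpM h4) :
    DatumFacts p (M' * p)
      (H.assembly (lHyp_bad (M' * p))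
        (lHyp_good p M' (padicPlace p) (liesOverPrime (ℓ := p)) hpM h4)).toSemiRedDatum := by
  have HL : LHyp Qbar ↥(Fbar (M' * p)) := lHyp_bad (M' * p)
  have Hk := lHyp_good p M' (padicPlace p) (liesOverPrime (ℓ := p)) hpM h4
  have : IsAlgClosed (kA (padicPlace p)) :=
    Fermat.Agent.ES.KRON.KronInst10.isAlgClosed_residueField (padicPlace p)
  have : Infinite (kA (padicPlace p)) := inferInstance
  have : Nonempty H.Nodes := Fermat.Agent.ORD.IFACEN.GlueTwoN9.nonempty_edges (H.assembly HL Hk)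
  refine datumFacts_of_sides' hpM h4 (H.assembly HL Hk)
    rfl rfl (fun _ => rfl) (fun _ => rfl) ?_ ?_ ?_
  · exact Fermat.Agent.ORD.IFACEN.PtsLift9.liftsMatched (H.ptsData HL Hk) 0 1 (fun _ => rfl)
      (fun _ => rfl) (fun v => by fin_cases v <;> simp) (fun _ => Iff.rfl) (fun _ => Iff.rfl)
  · intro γ hγ
    exact inertial_of_two p M' (padicPlace p) (liesOverPrime (ℓ := p)) hpM h4 hγ _ rfl rfl
  · intro γ hγ P
    exact hcentre_of_inertSide (H.ptsData HL Hk) _
      (valuation_base p M' (padicPlace p) hγ)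
      (res_of_mem_inertia (padicPlace p) hγ (M' * p))
      (smul_tBad p M' h4 γ)
      (smul_mem_chart0_iff (padicPlace p) hγ p M' h4)
      (smul_mem_chart1_iff (padicPlace p) hγ p M' h4)
      0 1
      (inertSide_side1 p M' (padicPlace p) (liesOverPrime (ℓ := p)) hpM h4 hγ)
      (inertSide_side2 p M' (padicPlace p) (liesOverPrime (ℓ := p)) hpM h4 hγ)
      hred.1 hred.2 P

variable (hp2 : p ≠ 2)

/-- **the working facts of ORD on the concrete datum.** -/
theorem datumFacts_datum : DatumFacts p (M' * p) (datum hpM h4 hp2) :=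
  have : Finite (hypMain hpM h4 hp2).Nodes := finite_nodes hpM h4 hp2
  datumFacts_of_hyp hpM h4 (hypMain hpM h4 hp2) (redHyp hpM h4 hp2)

/-- the residue field of `padicPlace p` is algebraically closed (instance for consumers). -/
theorem isAlgClosed_kA : IsAlgClosed (kA (padicPlace p)) :=
  Fermat.Agent.ES.KRON.KronInst10.isAlgClosed_residueField (padicPlace p)

/-- … of characteristic `p`. -/
theorem charP_kA : CharP (kA (padicPlace p)) p :=
  Fermat.Agent.ORD.IFACEN.ResidueFacts7.charP_residueField (padicPlace p) Fact.out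
    (liesOverPrime p)

/-- **the form asked by MP/TAU on the concrete datum.** -/
theorem exists_system_hRR_datum :
    ∃ (g : ℕ) (_ : NSSystemN (datum hpM h4 hp2) g),
      ∀ E' : Divisor Qbar ↥(Fbar (M' * p)), Divisor.degree E' = (g : ℤ) →
        ∃ f : ↥(Fbar (M' * p)), f ≠ 0 ∧ ∀ P, -(E' P) ≤ P.ord f := by
  have : IsAlgClosed (kA (padicPlace p)) := isAlgClosed_kA
  have : Infinite (kA (padicPlace p)) := inferInstance
  have : Nonempty (Nodes hpM h4 hp2) :=
    Fermat.Agent.ORD.IFACEN.GlueTwoN9.nonempty_edges (assembly hpM h4 hp2)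
  exact (datumFacts_datum hpM h4 hp2).exists_system_hRR

end Concrete

end Fermat.Agent.MP.FINAL.DatumFacts6
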