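/-
Programme MP (row 38 via S44), chapter FINAL (helper6): **assembly of the chapters on the concrete datum.**

`P` a Frey package with `p = P.p ≥ 5`, `p ∣ abc`; `M₀` with `4 ∣ M₀`, `p ∤ M₀`; `𝔻 = MainDatum6.datum hpM h4 hp2`
(level `M₀ p`).

* `zsmul_eq_val_nsmul` : on `p`-torsion, `k • x = (k : ZMod p).val • x`;
* **`false_of_heckeOut`** : the output `Iface5.HeckeOut P M₀ hpM (kerRed 𝔻) Wf` of chapter HECKE, together with
  (TH) + (R1') [chapter TH], (W) [chapter FUNC : `τ(Wf y)_e = −τ(y)_{s e}` on `p`-torsion] and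
  (Y) [`DegRedTwo9.FrickeStable`, used by (α-weak) of chapter TAU] is contradictory.
  Inside: (PEU) `Main4.exists_peuData` transported to `V` along the Galois-equivariant isomorphism of
  `HeckeOut`; (T3) `T3Final6.t3_datum'`; (α-weak) `Main9.halpha_datum`; `FinalMain6.false_of_tau_datum`
  with `L := ⟨e ℓ₀⟩`.
-/
import Mathlib
import Fermat.Agent.MP.FINAL.FinalMain6
import Fermat.Agent.MP.T3.T3Final6
import Fermat.Agent.MP.TAU.Main9
import Fermat.Agent.MP.PEU.Main4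
import Fermat.Agent.MP.HECKE.Iface5

set_option autoImplicit false
set_option linter.unusedSectionVars false
set_option linter.style.longLine false
set_option linter.style.haveILetI false
set_option synthInstance.maxHeartbeats 400000

namespace Fermat.Agent.MP.FINAL.Assemble6

open AlgebraicCurve ModularCurve Fermat.Agent.X0.FF
open Fermat.Agent.ORD.SEMIRED.SemiRedDatum9
open Fermat.Agent.ORD.KERN.KerDefs9 Fermat.Agent.ORD.KERN.KerN9 Fermat.Agent.ORD.KERN.KerGalN9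
open Fermat.Agent.FF.BASE.Place2 Fermat.Agent.FF.FINAL.Final0 GaloisRep
open Fermat.Agent.TW.FLAT.FlatModule6
open Fermat.Agent.MP.FINAL.MainDatum6 Fermat.Agent.MP.FINAL.DatumFacts6
open Fermat.Agent.MP.FINAL.FinalMain6
open Fermat.Agent.MP.T3.Config2 Fermat.Agent.MP.T3.Iface2 Fermat.Agent.MP.T3.Break7
open Fermat.Agent.MP.T3.Bridge6 Fermat.Agent.MP.T3.T3Datum6 Fermat.Agent.MP.TAU.TauDefs3
open Fermat.Agent.MP.T3.T3Final6
open Fermat.Agent.MP.PEU.Iface4 Fermat.Agent.MP.PEU.Main4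
open Fermat.Agent.MP.HECKE.Iface5
open Fermat.Agent.MP.TAU.DegRedTwo9
open Fermat.Agent.ES.RED.ChartIntegralA1

noncomputable section

local instance (priority := 100000) algKF6v (A : ValuationSubring Qb) (M : ℕ) [NeZero M] :
    Algebra (kA A) ↥(modularFunctionFieldFullC (kA A) M) := inferInstance

/-- on `p`-torsion, `k • x = (k : ZMod p).val • x`. -/
theorem zsmul_eq_val_nsmul {G : Type*} [AddCommGroup G] {p : ℕ} [NeZero p] {x : G}
    (hx : p • x = 0) (k : ℤ) : k • x = ((k : ZMod p)).val • x := by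
  have h1 : (((k : ZMod p)).val : ℤ) = k % (p : ℤ) := ZMod.val_intCast k
  have h2 : k = k % (p : ℤ) + (p : ℤ) * (k / (p : ℤ)) := (Int.emod_add_mul_ediv k p).symm
  have h3 : ((p : ℤ) * (k / (p : ℤ))) • x = 0 := by
    rw [mul_comm, mul_smul, natCast_zsmul, hx, smul_zero]
  calc k • x = (k % (p : ℤ) + (p : ℤ) * (k / (p : ℤ))) • x := by rw [← h2]
    _ = (k % (p : ℤ)) • x := by rw [add_smul, h3, add_zero]
    _ = ((k : ZMod p)).val • x := by rw [← h1, natCast_zsmul]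

variable (P : FreyPackage) [Fact P.p.Prime] [NeZero P.p]
  {M₀ : ℕ} [NeZero M₀] (hpM : ¬ P.p ∣ M₀) (h4 : 4 ∣ M₀) (hp2 : P.p ≠ 2)

/-- **assembly** : `HeckeOut` + (TH) + (R1') + (W) + (Y) ⟹ `False`. -/
theorem false_of_heckeOut (hp5 : 5 ≤ P.p) (hpabc : (P.p : ℤ) ∣ P.a * P.b * P.c)
    (Wf : JZero (M₀ * P.p) → JZero (M₀ * P.p))
    (hH : HeckeOut P M₀ hpM (kerRed (datum hpM h4 hp2)) Wf)
    {ζ : Qb} (hζ : IsPrimitiveRoot ζ P.p)
    (hTH : ∀ e, absv (datum hpM h4 hp2) ((datum hpM h4 hp2).π e) =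
      absv (datum hpM h4 hp2) ((P.p : ℕ) : Qb))
    (Φ : Nodes hpM h4 hp2 → X0.FF (M₀ * P.p))
    (Φ_fix : ∀ γ ∈ GamL P.p ζ, ∀ e,
      arithmeticGalois (modularFunctionFieldFull (M₀ * P.p)) γ • Φ e = Φ e)
    (Φ_ann : ∀ e (Q : Place Qb (X0.FF (M₀ * P.p))), (datum hpM h4 hp2).r Q = Sum.inr e →
      Q.ord (Φ e) = 0)
    (Φ_mem : ∀ e, Φ e ∈ (datum hpM h4 hp2).G ((datum hpM h4 hp2).src e))
    (Φ_ord : ∀ e, ((datum hpM h4 hp2).Qs e).ord
      ((datum hpM h4 hp2).red ((datum hpM h4 hp2).src e) ⟨Φ e, Φ_mem e⟩) = 1)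
    (hW : ∀ y : JZero (M₀ * P.p), (P.p : ℤ) • y = 0 →
      ∃ s : Nodes hpM h4 hp2 → Nodes hpM h4 hp2,
        ∀ e, tau (datum hpM h4 hp2) P.p (Wf y) e = - tau (datum hpM h4 hp2) P.p y (s e))
    (hY : FrickeStable M₀ (padicPlace P.p)) : False := by
  obtain ⟨V, e, Ξ, u, heq, hu, hΞV, hΞO, hΞK, hWV⟩ := hH
  obtain ⟨ℓ₀, y, χ, κ, hpeu⟩ := exists_peuData (P := P) hζ hpabc
  -- the transported action
  let act : GQ → ↥V → ↥V := fun σ x => e (σ • e.symm x)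
  have hpeu' : PeuData P.p act ζ (e ℓ₀) (e y) χ κ :=
    hpeu.transport act e (fun σ _ x => by show e (σ • x) = e (σ • e.symm (e x)); rw [e.symm_apply_apply])
  have hact : ∀ σ : GQ, ∀ x : ↥V, ((act σ x : ↥V) : JZero (M₀ * P.p)) = σ • (x : JZero (M₀ * P.p)) := by
    intro σ x
    show ((e (σ • e.symm x) : ↥V) : JZero (M₀ * P.p)) = _
    rw [heq, e.apply_symm_apply]
  have hVp' : ∀ x : ↥V, P.p • (x : JZero (M₀ * P.p)) = 0 := by
    intro x
    have := hpeu'.killed x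
    have h2 := congrArg (fun z : ↥V => (z : JZero (M₀ * P.p))) this
    simpa using h2
  have hVp : ∀ z ∈ V, (P.p : ℤ) • z = 0 := by
    intro z hz
    rw [natCast_zsmul]
    exact hVp' ⟨z, hz⟩
  set L : AddSubgroup (JZero (M₀ * P.p)) :=
    AddSubgroup.zmultiples ((e ℓ₀ : ↥V) : JZero (M₀ * P.p)) with hL
  have hLV : L ≤ V := by
    rw [hL, AddSubgroup.zmultiples_le]
    exact (e ℓ₀).2
  have hne : ¬ V ≤ L := by
    intro hVL
    have hy := hVL (e y).2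
    obtain ⟨k, hk⟩ := AddSubgroup.mem_zmultiples_iff.mp hy
    rw [zsmul_eq_val_nsmul (hVp' (e ℓ₀)) k] at hk
    -- `(-k).val • ℓ₀ + 1.val • y = 0`
    have h1 : ((k : ZMod P.p)).val • (e ℓ₀ : ↥V) = e y := Subtype.ext (by simpa using hk)
    have h2 : ((-(k : ZMod P.p) : ZMod P.p)).val • (e ℓ₀ : ↥V) + ((1 : ZMod P.p)).val • (e y : ↥V) = 0 := by
      have hp1 : (1 : ZMod P.p).val = 1 := by
        haveI : Fact (1 < P.p) := ⟨(Fact.out : P.p.Prime).one_lt⟩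
        exact ZMod.val_one P.p
      rw [hp1, one_smul, ← h1]
      have h3 : ((-(k : ZMod P.p) : ZMod P.p)).val • (e ℓ₀ : ↥V) =
          (-(k : ℤ)) • (e ℓ₀ : ↥V) := by
        have := zsmul_eq_val_nsmul (p := P.p) (x := (e ℓ₀ : ↥V)) (hpeu'.killed _) (-k)
        rw [this]
        push_cast
        rfl
      rw [h3, zsmul_eq_val_nsmul (p := P.p) (x := (e ℓ₀ : ↥V)) (hpeu'.killed _) k |>.symm]
      simp
    have := (hpeu'.indep _ _ h2).2
    exact one_ne_zero (α := ZMod P.p) this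
  have htriv : ∀ σ ∈ Iv P.p, ∀ z ∈ V, σ • z - z ∈ L := by
    intro σ hσ z hz
    have h1 := hpeu'.smul_sub_mem hσ ⟨z, hz⟩
    obtain ⟨k, hk⟩ := AddSubgroup.mem_zmultiples_iff.mp h1
    rw [hL]
    refine AddSubgroup.mem_zmultiples_iff.mpr ⟨k, ?_⟩
    have h2 := congrArg (fun w : ↥V => (w : JZero (M₀ * P.p))) hk
    simp only [AddSubgroup.coe_zsmul, AddSubgroup.coe_sub] at h2
    rw [h2, hact]
  have hT3 := t3_datum' hpM h4 hp2 hp5 hζ hTH Φ Φ_fix Φ_ann Φ_mem Φ_ord V act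
    (fun σ _ x => hact σ x) (e ℓ₀) (e y) χ κ hpeu'
  have hα := Fermat.Agent.MP.TAU.Main9.halpha_datum hpM h4 hp2 hY V hVp
  exact false_of_tau_datum hpM h4 hp2 V L (Old (Fact.out : P.p.Prime) hpM) hVp hLV hne htriv Ξ u hu
    hΞV hΞO hΞK (fun z e => tau (datum hpM h4 hp2) P.p z e) Wf hT3 hWV
    (fun z hz => hW z (hVp z hz)) hα

end

end Fermat.Agent.MP.FINAL.Assemble6
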