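/-
Programme MP (row 38 via S44), chapter FINAL (helper6): **S44 from the outputs of the chapters.**

* `THOut hpM h4 hp2 ζ` : the output of chapter TH on `MainDatum6.datum hpM h4 hp2` — (TH) thickness one and
  (R1') the functions `Φ_e`;
* `WOut hpM h4 hp2 Wf` : the output (W) of chapter FUNC for an operator `Wf` on `J₀(M₀ p)`;
* **`s44_of_chapters`** : the frozen statement S44 (`level_lowering_at_p_of_conductorLevel`) from
  - `hHecke` : chapter HECKE (`¬ ModularRepOfLevel (N / p)` ⟹ some `M₀` with `Iface5.HeckeOut`),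
  - `hTH`, `hW`, `hY` : chapters TH, FUNC and (Y) at every level `M₀` (`4 ∣ M₀`, `p ∤ M₀`).
-/
import Mathlib
import Fermat.Agent.MP.FINAL.Assemble6
import Fermat.Prelude.Def_FLTPrelim_ModularRep
import Fermat.Prelude.Def_FreyPackage_IsConductorLevel

set_option autoImplicit false
set_option linter.unusedSectionVars false
set_option linter.style.longLine false
set_option linter.style.haveILetI false
set_option synthInstance.maxHeartbeats 400000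

namespace Fermat.Agent.MP.FINAL.S44Main6

open AlgebraicCurve ModularCurve Fermat.Agent.X0.FF
open Fermat.Agent.ORD.SEMIRED.SemiRedDatum9
open Fermat.Agent.ORD.KERN.KerDefs9 Fermat.Agent.ORD.KERN.KerN9 Fermat.Agent.ORD.KERN.KerGalN9
open Fermat.Agent.FF.BASE.Place2 Fermat.Agent.FF.FINAL.Final0 GaloisRep
open Fermat.Agent.TW.FLAT.FlatModule6
open Fermat.Agent.MP.FINAL.MainDatum6 Fermat.Agent.MP.FINAL.DatumFacts6
open Fermat.Agent.MP.FINAL.Assemble6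
open Fermat.Agent.MP.T3.Config2 Fermat.Agent.MP.T3.Iface2 Fermat.Agent.MP.T3.Break7
open Fermat.Agent.MP.T3.Bridge6 Fermat.Agent.MP.TAU.TauDefs3
open Fermat.Agent.MP.HECKE.Iface5
open Fermat.Agent.MP.TAU.DegRedTwo9
open Fermat.Agent.ES.RED.ChartIntegralA1

noncomputable section

local instance (priority := 100000) algKF6w (A : ValuationSubring Qb) (M : ℕ) [NeZero M] :
    Algebra (kA A) ↥(modularFunctionFieldFullC (kA A) M) := inferInstance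

section Outputs

variable {p M₀ : ℕ} [Fact p.Prime] [NeZero M₀] (hpM : ¬ p ∣ M₀) (h4 : 4 ∣ M₀) (hp2 : p ≠ 2)

/-- **the output of chapter TH** on the concrete datum : (TH) and (R1'). -/
structure THOut (ζ : Qb) : Prop where
  thick : ∀ e, absv (datum hpM h4 hp2) ((datum hpM h4 hp2).π e) =
    absv (datum hpM h4 hp2) ((p : ℕ) : Qb)
  r1 : ∃ (Φ : Nodes hpM h4 hp2 → X0.FF (M₀ * p))
      (Φ_mem : ∀ e, Φ e ∈ (datum hpM h4 hp2).G ((datum hpM h4 hp2).src e)),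
    (∀ γ ∈ GamL p ζ, ∀ e, arithmeticGalois (modularFunctionFieldFull (M₀ * p)) γ • Φ e = Φ e) ∧
    (∀ e (Q : Place Qb (X0.FF (M₀ * p))), (datum hpM h4 hp2).r Q = Sum.inr e → Q.ord (Φ e) = 0) ∧
    (∀ e, ((datum hpM h4 hp2).Qs e).ord
      ((datum hpM h4 hp2).red ((datum hpM h4 hp2).src e) ⟨Φ e, Φ_mem e⟩) = 1)

/-- **the output (W) of chapter FUNC** for an operator `Wf` on `J₀(M₀ p)`. -/
def WOut (Wf : JZero (M₀ * p) → JZero (M₀ * p)) : Prop :=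
  ∀ y : JZero (M₀ * p), (p : ℤ) • y = 0 →
    ∃ s : Nodes hpM h4 hp2 → Nodes hpM h4 hp2,
      ∀ e, tau (datum hpM h4 hp2) p (Wf y) e = - tau (datum hpM h4 hp2) p y (s e)

end Outputs

/-- there is a primitive `p`-th root of unity in `ℚ̄`. -/
theorem exists_primitiveRoot (p : ℕ) [NeZero p] : ∃ ζ : Qb, IsPrimitiveRoot ζ p :=
  HasEnoughRootsOfUnity.exists_primitiveRoot Qb p

/-- **S44 from the chapters.** -/
theorem s44_of_chapters (P : FreyPackage) {N : ℕ} (hcond : P.IsConductorLevel N) (hpN : P.p ∣ N)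
    (Wf : ∀ (M₀ : ℕ) [NeZero M₀], JZero (M₀ * P.p) → JZero (M₀ * P.p))
    (hHecke : haveI : Fact P.p.Prime := ⟨P.pp⟩
      haveI : NeZero P.p := ⟨P.hp0⟩
      ¬ P.ModularRepOfLevel (N / P.p) →
      ∃ (M₀ : ℕ) (_ : NeZero M₀) (h4 : 4 ∣ M₀) (hpM : ¬ P.p ∣ M₀) (hp2 : P.p ≠ 2),
        HeckeOut P M₀ hpM (kerRed (datum hpM h4 hp2)) (Wf M₀))
    (hTH : haveI : Fact P.p.Prime := ⟨P.pp⟩
      ∀ (M₀ : ℕ) [NeZero M₀] (h4 : 4 ∣ M₀) (hpM : ¬ P.p ∣ M₀) (hp2 : P.p ≠ 2) (ζ : Qb),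
        IsPrimitiveRoot ζ P.p → THOut hpM h4 hp2 ζ)
    (hW : haveI : Fact P.p.Prime := ⟨P.pp⟩
      ∀ (M₀ : ℕ) [NeZero M₀] (h4 : 4 ∣ M₀) (hpM : ¬ P.p ∣ M₀) (hp2 : P.p ≠ 2),
        WOut hpM h4 hp2 (Wf M₀))
    (hY : haveI : Fact P.p.Prime := ⟨P.pp⟩
      ∀ (M₀ : ℕ) [NeZero M₀], 4 ∣ M₀ → ¬ P.p ∣ M₀ → FrickeStable M₀ (padicPlace P.p)) :
    ∃ M : ℕ, M ∣ N ∧ ¬ P.p ∣ M ∧ P.ModularRepOfLevel M := by
  haveI : Fact P.p.Prime := ⟨P.pp⟩
  haveI : NeZero P.p := ⟨P.hp0⟩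
  refine ⟨N / P.p, Nat.div_dvd_of_dvd hpN, ?_, ?_⟩
  · intro h
    apply hcond.sq_not_dvd P.pp
    obtain ⟨k, hk⟩ := h
    refine ⟨k, ?_⟩
    have h1 : N = P.p * (N / P.p) := (Nat.mul_div_cancel' hpN).symm
    rw [h1, hk]; ring
  · by_contra hno
    obtain ⟨M₀, hM₀, h4, hpM, hp2, hH⟩ := hHecke hno
    obtain ⟨ζ, hζ⟩ := exists_primitiveRoot P.p
    obtain ⟨hthick, Φ, Φ_mem, Φ_fix, Φ_ann, Φ_ord⟩ := hTH M₀ h4 hpM hp2 ζ hζ
    exact false_of_heckeOut P hpM h4 hp2 P.hp5 (hcond.p_dvd_abc hpN) (Wf M₀) hH hζ hthick Φ Φ_fix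
      Φ_ann Φ_mem Φ_ord (hW M₀ h4 hpM hp2) (hY M₀ h4 hpM)

end

end Fermat.Agent.MP.FINAL.S44Main6
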