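/-
Programme MP (row 38 via S44), chapter FINAL (helper6): **S44 from the outputs of the chapters, second
form** : the operator `Wf` may depend on the proof of `4 ∣ M₀` (e.g. `Wf M₀ h4 := Aut5.cWOp (M₀ * p) _`).

* **`s44_of_chapters'`** : as `S44Main6.s44_of_chapters`, with
  `Wf : ∀ (M₀ : ℕ) [NeZero M₀], 4 ∣ M₀ → JZero (M₀ * P.p) → JZero (M₀ * P.p)`.
-/
import Mathlib
import Fermat.Agent.MP.FINAL.S44Main6

set_option autoImplicit false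
set_option linter.unusedSectionVars false
set_option linter.style.longLine false
set_option linter.style.haveILetI false
set_option synthInstance.maxHeartbeats 400000

namespace Fermat.Agent.MP.FINAL.S44Final6

open AlgebraicCurve ModularCurve Fermat.Agent.X0.FF
open Fermat.Agent.ORD.SEMIRED.SemiRedDatum9
open Fermat.Agent.ORD.KERN.KerDefs9 Fermat.Agent.ORD.KERN.KerN9 Fermat.Agent.ORD.KERN.KerGalN9
open Fermat.Agent.FF.BASE.Place2 Fermat.Agent.FF.FINAL.Final0 GaloisRep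
open Fermat.Agent.TW.FLAT.FlatModule6
open Fermat.Agent.MP.FINAL.MainDatum6 Fermat.Agent.MP.FINAL.DatumFacts6
open Fermat.Agent.MP.FINAL.Assemble6 Fermat.Agent.MP.FINAL.S44Main6
open Fermat.Agent.MP.HECKE.Iface5
open Fermat.Agent.MP.TAU.DegRedTwo9
open Fermat.Agent.ES.RED.ChartIntegralA1

noncomputable section

local instance (priority := 100000) algKF6y (A : ValuationSubring Qb) (M : ℕ) [NeZero M] :
    Algebra (kA A) ↥(modularFunctionFieldFullC (kA A) M) := inferInstance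

/-- **S44 from the chapters** (`Wf` depending on `4 ∣ M₀`). -/
theorem s44_of_chapters' (P : FreyPackage) {N : ℕ} (hcond : P.IsConductorLevel N) (hpN : P.p ∣ N)
    (Wf : ∀ (M₀ : ℕ) [NeZero M₀], 4 ∣ M₀ → JZero (M₀ * P.p) → JZero (M₀ * P.p))
    (hHecke : haveI : Fact P.p.Prime := ⟨P.pp⟩
      haveI : NeZero P.p := ⟨P.hp0⟩
      ¬ P.ModularRepOfLevel (N / P.p) →
      ∃ (M₀ : ℕ) (_ : NeZero M₀) (h4 : 4 ∣ M₀) (hpM : ¬ P.p ∣ M₀) (hp2 : P.p ≠ 2),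
        HeckeOut P M₀ hpM (kerRed (datum hpM h4 hp2)) (Wf M₀ h4))
    (hTH : haveI : Fact P.p.Prime := ⟨P.pp⟩
      ∀ (M₀ : ℕ) [NeZero M₀] (h4 : 4 ∣ M₀) (hpM : ¬ P.p ∣ M₀) (hp2 : P.p ≠ 2) (ζ : Qb),
        IsPrimitiveRoot ζ P.p → THOut hpM h4 hp2 ζ)
    (hW : haveI : Fact P.p.Prime := ⟨P.pp⟩
      ∀ (M₀ : ℕ) [NeZero M₀] (h4 : 4 ∣ M₀) (hpM : ¬ P.p ∣ M₀) (hp2 : P.p ≠ 2),
        WOut hpM h4 hp2 (Wf M₀ h4))
    (hY : haveI : Fact P.p.Prime := ⟨P.pp⟩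
      ∀ (M₀ : ℕ) [NeZero M₀], 4 ∣ M₀ → ¬ P.p ∣ M₀ → FrickeStable M₀ (padicPlace P.p)) :
    ∃ M : ℕ, M ∣ N ∧ ¬ P.p ∣ M ∧ P.ModularRepOfLevel M := by
  haveI : Fact P.p.Prime := ⟨P.pp⟩
  haveI : NeZero P.p := ⟨P.hp0⟩
  refine ⟨N / P.p, Nat.div_dvd_of_dvd hpN, ?_, ?_⟩
  · intro h
    apply hcond.sq_not_dvd P.pp
    obtain ⟨k, hk⟩ := h
    refine ⟨k, ?_⟩
    have h1 : N = P.p * (N / P.p) := (Nat.mul_div_cancel' hpN).symm
    rw [h1, hk]; ring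
  · by_contra hno
    obtain ⟨M₀, hM₀, h4, hpM, hp2, hH⟩ := hHecke hno
    obtain ⟨ζ, hζ⟩ := exists_primitiveRoot P.p
    obtain ⟨hthick, Φ, Φ_mem, Φ_fix, Φ_ann, Φ_ord⟩ := hTH M₀ h4 hpM hp2 ζ hζ
    exact false_of_heckeOut P hpM h4 hp2 P.hp5 (hcond.p_dvd_abc hpN) (Wf M₀ h4) hH hζ hthick Φ Φ_fix
      Φ_ann Φ_mem Φ_ord (hW M₀ h4 hpM hp2) (hY M₀ h4 hpM)

end

end Fermat.Agent.MP.FINAL.S44Final6
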