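/-
Programme MP (row 38 via S44), chapter FINAL (helper6): **S44 from the THREE remaining chapter outputs**
(HECKE, TH, FUNC-(W)); (Y) is discharged by `MP/TAU/Final9.frickeStable_padic` (helper9).

* **`s44_of_three`** : `S44Final6.s44_of_chapters'` without the hypothesis `hY`.
-/
import Mathlib
import Fermat.Agent.MP.FINAL.S44Final6
import Fermat.Agent.MP.TAU.Final9

set_option autoImplicit false
set_option linter.unusedSectionVars false
set_option linter.style.longLine false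
set_option linter.style.haveILetI false
set_option synthInstance.maxHeartbeats 400000

namespace Fermat.Agent.MP.FINAL.S44Last6

open AlgebraicCurve ModularCurve Fermat.Agent.X0.FF
open Fermat.Agent.ORD.SEMIRED.SemiRedDatum9
open Fermat.Agent.ORD.KERN.KerDefs9 Fermat.Agent.ORD.KERN.KerN9 Fermat.Agent.ORD.KERN.KerGalN9
open Fermat.Agent.FF.BASE.Place2 Fermat.Agent.FF.FINAL.Final0 GaloisRep
open Fermat.Agent.TW.FLAT.FlatModule6
open Fermat.Agent.MP.FINAL.MainDatum6 Fermat.Agent.MP.FINAL.DatumFacts6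
open Fermat.Agent.MP.FINAL.Assemble6 Fermat.Agent.MP.FINAL.S44Main6 Fermat.Agent.MP.FINAL.S44Final6
open Fermat.Agent.MP.HECKE.Iface5
open Fermat.Agent.MP.TAU.DegRedTwo9
open Fermat.Agent.ES.RED.ChartIntegralA1

noncomputable section

local instance (priority := 100000) algKF6z (A : ValuationSubring Qb) (M : ℕ) [NeZero M] :
    Algebra (kA A) ↥(modularFunctionFieldFullC (kA A) M) := inferInstance

/-- **S44 from HECKE, TH and (W).** -/
theorem s44_of_three (P : FreyPackage) {N : ℕ} (hcond : P.IsConductorLevel N) (hpN : P.p ∣ N)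
    (Wf : ∀ (M₀ : ℕ) [NeZero M₀], 4 ∣ M₀ → JZero (M₀ * P.p) → JZero (M₀ * P.p))
    (hHecke : haveI : Fact P.p.Prime := ⟨P.pp⟩
      haveI : NeZero P.p := ⟨P.hp0⟩
      ¬ P.ModularRepOfLevel (N / P.p) →
      ∃ (M₀ : ℕ) (_ : NeZero M₀) (h4 : 4 ∣ M₀) (hpM : ¬ P.p ∣ M₀) (hp2 : P.p ≠ 2),
        HeckeOut P M₀ hpM (kerRed (datum hpM h4 hp2)) (Wf M₀ h4))
    (hTH : haveI : Fact P.p.Prime := ⟨P.pp⟩
      ∀ (M₀ : ℕ) [NeZero M₀] (h4 : 4 ∣ M₀) (hpM : ¬ P.p ∣ M₀) (hp2 : P.p ≠ 2) (ζ : Qb),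
        IsPrimitiveRoot ζ P.p → THOut hpM h4 hp2 ζ)
    (hW : haveI : Fact P.p.Prime := ⟨P.pp⟩
      ∀ (M₀ : ℕ) [NeZero M₀] (h4 : 4 ∣ M₀) (hpM : ¬ P.p ∣ M₀) (hp2 : P.p ≠ 2),
        WOut hpM h4 hp2 (Wf M₀ h4)) :
    ∃ M : ℕ, M ∣ N ∧ ¬ P.p ∣ M ∧ P.ModularRepOfLevel M :=
  haveI : Fact P.p.Prime := ⟨P.pp⟩
  s44_of_chapters' P hcond hpN Wf hHecke hTH hW
    (fun _ _ _ hpM => Fermat.Agent.MP.TAU.Final9.frickeStable_padic hpM)

end

end Fermat.Agent.MP.FINAL.S44Last6
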