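/-
Programme MP (row 38 via S44), chapter FINAL (helper6): **S44 from `HeckeMain5.heckeOut`.**

* `Kbad hp2 M`, `Kgood M` : the families of kernels of reduction consumed by `Facts5.RedFacts`
  (`kerRed (MainDatum6.datum …)` at the bad level `M p`, `ker (redPic (GoodDatum9.goodDatum …))` at the good
  level `M`, for `4 ∣ M`, `p ∤ M`; `⊤` otherwise);
* `DegOut p hp2`, `AutOut p hp2` : the two outputs of chapter FUNC still to come (degeneracy maps at a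
  prime `r` between bad levels, the automorphisms `s₁`, `W`), on the concrete data;
* `redFacts` : `Facts5.RedFacts` from them ((X1) by `X1Good3`, `pdeg` by `PullKerInst9`);
* **`s44_of_func`** : the frozen statement S44 from `LatStmt` (lattice side), `DegOut`, `AutOut` (FUNC),
  `THOut` (TH) and `WOut` for `𝒲 = Aut5.cWOp` (FUNC).
-/
import Mathlib
import Fermat.Agent.MP.FINAL.S44Last6
import Fermat.Agent.MP.HECKE.HeckeMain5
import Fermat.Agent.MP.FIN.X1Good3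
import Fermat.Agent.MP.TAU.PullKerInst9

set_option autoImplicit false
set_option linter.unusedSectionVars false
set_option linter.style.longLine false
set_option linter.style.haveILetI false
set_option synthInstance.maxHeartbeats 400000
set_option maxHeartbeats 1000000

open WeierstrassCurve WeierstrassCurve.Affine

namespace Fermat.Agent.MP.FINAL.S44Glue6

open AlgebraicCurve ModularCurve
open Fermat.Agent.X0 Fermat.Agent.RED.TOP
open Fermat.Agent.ORD.SEMIRED.SemiRedDatum9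
open Fermat.Agent.ORD.KERN.KerDefs9 Fermat.Agent.ORD.KERN.KerN9
open Fermat.Agent.FF.BASE.Place2 Fermat.Agent.FF.KER.Ker0
open Fermat.Agent.TW.FLAT.FlatModule6
open Fermat.Agent.MP.FUNC.FrickeDeg1
open Fermat.Agent.MP.FINAL.MainDatum6
open Fermat.Agent.MP.FINAL.S44Main6 Fermat.Agent.MP.FINAL.S44Last6
open Fermat.Agent.MP.HECKE.LvlMap6 Fermat.Agent.MP.HECKE.CorrId6 Fermat.Agent.MP.HECKE.Aut5
open Fermat.Agent.MP.HECKE.Iface5 Fermat.Agent.MP.HECKE.Facts5 Fermat.Agent.MP.HECKE.HeckeMain5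
open Fermat.Agent.MP.TAU.GoodDatum9
open Fermat.Agent.ES.RED.ChartIntegralA1

noncomputable section

local instance (priority := 100000) algKF6g (A : ValuationSubring Qb) (M : ℕ) [NeZero M] :
    Algebra (kA A) ↥(modularFunctionFieldFullC (kA A) M) := inferInstance

section Families

variable {p : ℕ} [Fact p.Prime] (hp2 : p ≠ 2)

open Classical in
/-- the kernel of reduction at the bad level `M p`. -/
def Kbad (M : ℕ) [NeZero M] : AddSubgroup (JZero (M * p)) :=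
  if h : 4 ∣ M ∧ ¬ p ∣ M then kerRed (datum h.2 h.1 hp2) else ⊤

theorem Kbad_eq {M : ℕ} [NeZero M] (h4 : 4 ∣ M) (hpM : ¬ p ∣ M) :
    Kbad hp2 M = kerRed (datum hpM h4 hp2) :=
  dif_pos ⟨h4, hpM⟩

open Classical in
/-- the kernel of reduction at the good level `M`. -/
def Kgood (p : ℕ) [Fact p.Prime] (M : ℕ) [NeZero M] : AddSubgroup (JZero M) :=
  if h : 4 ∣ M ∧ ¬ p ∣ M then (redPic (goodDatum h.2 h.1)).ker else ⊤

theorem Kgood_eq {M : ℕ} [NeZero M] (h4 : 4 ∣ M) (hpM : ¬ p ∣ M) :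
    Kgood p M = (redPic (goodDatum hpM h4)).ker :=
  dif_pos ⟨h4, hpM⟩

/-- **FUNC, degeneracy maps** : pulls and pushes along `α_r`, `β_r` between the bad levels `M₁ p` and
`M₁ r p` respect the kernels of reduction. -/
def DegOut (p : ℕ) [Fact p.Prime] (hp2 : p ≠ 2) : Prop :=
  ∀ (M₁ M₂ r : ℕ) [NeZero M₁] [NeZero M₂] [NeZero r] (h4₁ : 4 ∣ M₁) (hpM₁ : ¬ p ∣ M₁)
    (h4₂ : 4 ∣ M₂) (hpM₂ : ¬ p ∣ M₂), r.Prime → ¬ r ∣ M₁ * p → M₁ * r = M₂ →
    ∀ (φ ψ : FF (M₁ * p) →ₐ[Kbar] FF (M₂ * p)), IsAlpha φ → IsBeta r ψ →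
    ∀ (fφ : FiniteAlong Kbar φ) (fψ : FiniteAlong Kbar ψ),
      (∀ y ∈ kerRed (datum hpM₁ h4₁ hp2), pullL φ fφ y ∈ kerRed (datum hpM₂ h4₂ hp2)) ∧
      (∀ y ∈ kerRed (datum hpM₁ h4₁ hp2), pullL ψ fψ y ∈ kerRed (datum hpM₂ h4₂ hp2)) ∧
      (∀ x ∈ kerRed (datum hpM₂ h4₂ hp2), pushL φ fφ x ∈ kerRed (datum hpM₁ h4₁ hp2)) ∧
      (∀ x ∈ kerRed (datum hpM₂ h4₂ hp2), pushL ψ fψ x ∈ kerRed (datum hpM₁ h4₁ hp2))

/-- **FUNC, automorphisms** : `s₁` and `W` respect the kernel of reduction. -/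
def AutOut (p : ℕ) [Fact p.Prime] (hp2 : p ≠ 2) : Prop :=
  ∀ (M : ℕ) [NeZero M] (h4 : 4 ∣ M) (hpM : ¬ p ∣ M),
    (∀ x ∈ kerRed (datum hpM h4 hp2),
      s1Op (M * p) (Dvd.dvd.mul_right h4 p) x ∈ kerRed (datum hpM h4 hp2)) ∧
    (∀ x ∈ kerRed (datum hpM h4 hp2), frickeJ (M * p) x ∈ kerRed (datum hpM h4 hp2))

/-- **the reduction side** from the chapters. -/
theorem redFacts [NeZero p] (hdeg : DegOut p hp2) (haut : AutOut p hp2) :
    RedFacts p (Fact.out : p.Prime) (Kbad hp2) (Kgood p) where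
  deg := by
    intro M₁ M₂ r _ _ _ h4₁ hpM₂ hr hrM h φ ψ hφ hψ fφ fψ
    have hd : M₁ ∣ M₂ := Dvd.intro _ h
    have hpM₁ : ¬ p ∣ M₁ := fun h' => hpM₂ (h'.trans hd)
    have h4₂ : 4 ∣ M₂ := h4₁.trans hd
    rw [Kbad_eq hp2 h4₁ hpM₁, Kbad_eq hp2 h4₂ hpM₂]
    exact hdeg M₁ M₂ r h4₁ hpM₁ h4₂ hpM₂ hr hrM h φ ψ hφ hψ fφ fψ
  aut := by
    intro M _ h4 hpM
    rw [Kbad_eq hp2 h4 hpM]
    exact haut M h4 hpM
  x1 := by
    intro M _ h4 hpM t ht htors u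
    rw [Kgood_eq h4 hpM]
    exact Fermat.Agent.MP.FIN.X1Good3.mem_ker_redPic_goodDatum hpM h4 t ht htors u
  pdeg := by
    intro M _ h4 hpM u hu
    rw [Kgood_eq h4 hpM] at hu
    rw [Kbad_eq hp2 h4 hpM]
    exact ⟨Fermat.Agent.MP.TAU.PullKerInst9.alphaPull_mem_kerRed hpM h4 hp2 u hu,
      Fermat.Agent.MP.TAU.PullKerInst9.betaPull_mem_kerRed hpM h4 hp2 u hu⟩

end Families

/-- **S44 from the lattice side, FUNC and TH.** -/
theorem s44_of_func (P : FreyPackage) {N : ℕ} (hcond : P.IsConductorLevel N) (hpN : P.p ∣ N)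
    (hirr : Point.GaloisRepIsIrreducible (K := AlgebraicClosure ℚ) ℚ P.freyCurve P.p)
    (hmod : P.ModularRepOfLevel N)
    (lat : ∀ (M' : ℕ) [NeZero M'], LatStmt P.freyCurve M' P.p)
    (hdeg : haveI : Fact P.p.Prime := ⟨P.pp⟩
      ∀ hp2 : P.p ≠ 2, DegOut P.p hp2)
    (haut : haveI : Fact P.p.Prime := ⟨P.pp⟩
      ∀ hp2 : P.p ≠ 2, AutOut P.p hp2)
    (hTH : haveI : Fact P.p.Prime := ⟨P.pp⟩
      ∀ (M₀ : ℕ) [NeZero M₀] (h4 : 4 ∣ M₀) (hpM : ¬ P.p ∣ M₀) (hp2 : P.p ≠ 2) (ζ : Qb),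
        IsPrimitiveRoot ζ P.p → THOut hpM h4 hp2 ζ)
    (hW : haveI : Fact P.p.Prime := ⟨P.pp⟩
      ∀ (M₀ : ℕ) [NeZero M₀] (h4 : 4 ∣ M₀) (hpM : ¬ P.p ∣ M₀) (hp2 : P.p ≠ 2),
        WOut hpM h4 hp2 (cWOp (M₀ * P.p) (Dvd.dvd.mul_right h4 P.p))) :
    ∃ M : ℕ, M ∣ N ∧ ¬ P.p ∣ M ∧ P.ModularRepOfLevel M := by
  haveI : Fact P.p.Prime := ⟨P.pp⟩
  haveI : NeZero P.p := ⟨P.hp0⟩
  have hp2 : P.p ≠ 2 := by have := P.hp5; omega
  have hN : N / P.p * P.p = N := Nat.div_mul_cancel hpN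
  have hM'0 : N / P.p ≠ 0 := by
    intro h0
    rw [h0, zero_mul] at hN
    exact hcond.pos.ne' hN.symm
  haveI : NeZero (N / P.p) := ⟨hM'0⟩
  refine s44_of_three P hcond hpN
    (fun M₀ _ h4 => cWOp (M₀ * P.p) (Dvd.dvd.mul_right h4 P.p)) ?_ hTH hW
  intro hno
  have hcond' : P.IsConductorLevel (N / P.p * P.p) := by rw [hN]; exact hcond
  have hmod' : P.ModularRepOfLevel (N / P.p * P.p) := by rw [hN]; exact hmod
  obtain ⟨M₀, hM₀, h4, hpM, hH⟩ := heckeOut P hcond' hirr hmod' hno (lat (N / P.p))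
    (redFacts hp2 (hdeg hp2) (haut hp2))
  refine ⟨M₀, hM₀, h4, hpM, hp2, ?_⟩
  rw [← Kbad_eq hp2 h4 hpM]
  exact hH

end

end Fermat.Agent.MP.FINAL.S44Glue6
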