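/-
Programme MP (row 38 via S44), chapter FINAL (helper6): **S44 from the FOUR remaining inputs** :
`DegOut`, `AutOut`, `WOut` (chapter FUNC) and `THOut` (chapter TH). The lattice side is discharged by
`LatGlue6.latStmt` (helper3's Sep3/TorsKill3/Two3).

* **`s44_of_four`**.
-/
import Mathlib
import Fermat.Agent.MP.FINAL.S44Glue6
import Fermat.Agent.MP.HECKE.LatGlue6

set_option autoImplicit false
set_option linter.unusedSectionVars false
set_option linter.style.longLine false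
set_option linter.style.haveILetI false
set_option synthInstance.maxHeartbeats 400000

open WeierstrassCurve WeierstrassCurve.Affine

namespace Fermat.Agent.MP.FINAL.S44Four6

open AlgebraicCurve ModularCurve
open Fermat.Agent.TW.FLAT.FlatModule6
open Fermat.Agent.MP.FINAL.MainDatum6
open Fermat.Agent.MP.FINAL.S44Main6 Fermat.Agent.MP.FINAL.S44Glue6
open Fermat.Agent.MP.HECKE.Aut5
open Fermat.Agent.ES.RED.ChartIntegralA1

noncomputable section

local instance (priority := 100000) algKF6h (A : ValuationSubring Qb) (M : ℕ) [NeZero M] :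
    Algebra (kA A) ↥(modularFunctionFieldFullC (kA A) M) := inferInstance

/-- **S44 from FUNC (`DegOut`, `AutOut`, `WOut`) and TH (`THOut`).** -/
theorem s44_of_four (P : FreyPackage) {N : ℕ} (hcond : P.IsConductorLevel N) (hpN : P.p ∣ N)
    (hirr : Point.GaloisRepIsIrreducible (K := AlgebraicClosure ℚ) ℚ P.freyCurve P.p)
    (hmod : P.ModularRepOfLevel N)
    (hdeg : haveI : Fact P.p.Prime := ⟨P.pp⟩
      ∀ hp2 : P.p ≠ 2, DegOut P.p hp2)
    (haut : haveI : Fact P.p.Prime := ⟨P.pp⟩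
      ∀ hp2 : P.p ≠ 2, AutOut P.p hp2)
    (hTH : haveI : Fact P.p.Prime := ⟨P.pp⟩
      ∀ (M₀ : ℕ) [NeZero M₀] (h4 : 4 ∣ M₀) (hpM : ¬ P.p ∣ M₀) (hp2 : P.p ≠ 2) (ζ : Qb),
        IsPrimitiveRoot ζ P.p → THOut hpM h4 hp2 ζ)
    (hW : haveI : Fact P.p.Prime := ⟨P.pp⟩
      ∀ (M₀ : ℕ) [NeZero M₀] (h4 : 4 ∣ M₀) (hpM : ¬ P.p ∣ M₀) (hp2 : P.p ≠ 2),
        WOut hpM h4 hp2 (cWOp (M₀ * P.p) (Dvd.dvd.mul_right h4 P.p))) :
    ∃ M : ℕ, M ∣ N ∧ ¬ P.p ∣ M ∧ P.ModularRepOfLevel M :=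
  s44_of_func P hcond hpN hirr hmod
    (fun M' _ => Fermat.Agent.MP.HECKE.LatGlue6.latStmt P M') hdeg haut hTH hW

end

end Fermat.Agent.MP.FINAL.S44Four6
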