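/-
Programme MP (row 38 via S44), chapter FINAL (helper6): **S44 from the four remaining inputs, with the
hypothesis `¬ 8 ∣ M` available everywhere** (chapter FUNC proves (H1) for the Fricke involution only at
levels `4 ∥ M`; the levels of the application are `M″ p` and `M″ r p` with `4 ∥ M″`, `r` odd).

* `Kbad8 hp2 M`, `Kgood8 p M` : as `S44Glue6.Kbad`, `Kgood`, but `⊤` when `8 ∣ M`;
* `DegOut8`, `AutOut8` : as `S44Glue6.DegOut`, `AutOut` with the extra hypotheses `¬ 8 ∣ M`;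
* `redFacts8` : `Facts5.RedFacts` for these families;
* `heckeOut8` : `HeckeMain5.heckeOut` exporting `¬ 8 ∣ M₀`;
* **`s44_of_four8`** : S44 from `DegOut8`, `AutOut8`, `WOut` (for `𝒲 = cWOp`, at levels `4 ∥ M₀`) and `THOut`
  (at levels `4 ∥ M₀`).
-/
import Mathlib
import Fermat.Agent.MP.FINAL.S44Four6

set_option autoImplicit false
set_option linter.unusedSectionVars false
set_option linter.unusedVariables false
set_option linter.style.longLine false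
set_option linter.style.haveILetI false
set_option synthInstance.maxHeartbeats 400000
set_option maxHeartbeats 1000000

open WeierstrassCurve WeierstrassCurve.Affine

namespace Fermat.Agent.MP.FINAL.S44Eight6

open AlgebraicCurve ModularCurve
open Fermat.Agent.X0 Fermat.Agent.RED.TOP
open Fermat.Agent.ORD.SEMIRED.SemiRedDatum9
open Fermat.Agent.ORD.KERN.KerDefs9 Fermat.Agent.ORD.KERN.KerN9
open Fermat.Agent.FF.BASE.Place2 Fermat.Agent.FF.KER.Ker0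
open Fermat.Agent.TW.FLAT.FlatModule6
open Fermat.Agent.MP.FUNC.FrickeDeg1
open Fermat.Agent.MP.FINAL.MainDatum6 Fermat.Agent.MP.FINAL.Assemble6
open Fermat.Agent.MP.FINAL.S44Main6
open Fermat.Agent.MP.HECKE.LvlMap6 Fermat.Agent.MP.HECKE.CorrId6 Fermat.Agent.MP.HECKE.Aut5
open Fermat.Agent.MP.HECKE.ESum5
open Fermat.Agent.MP.HECKE.Iface5 Fermat.Agent.MP.HECKE.Facts5 Fermat.Agent.MP.HECKE.HeckeMain5
open Fermat.Agent.MP.TAU.GoodDatum9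
open Fermat.Agent.ES.RED.ChartIntegralA1

noncomputable section

local instance (priority := 100000) algKF6e (A : ValuationSubring Qb) (M : ℕ) [NeZero M] :
    Algebra (kA A) ↥(modularFunctionFieldFullC (kA A) M) := inferInstance

section Families

variable {p : ℕ} [Fact p.Prime] (hp2 : p ≠ 2)

open Classical in
/-- the kernel of reduction at the bad level `M p` (`4 ∥ M`, `p ∤ M`; `⊤` otherwise). -/
def Kbad8 (M : ℕ) [NeZero M] : AddSubgroup (JZero (M * p)) :=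
  if h : 4 ∣ M ∧ ¬ 8 ∣ M ∧ ¬ p ∣ M then kerRed (datum h.2.2 h.1 hp2) else ⊤

theorem Kbad8_eq {M : ℕ} [NeZero M] (h4 : 4 ∣ M) (h8 : ¬ 8 ∣ M) (hpM : ¬ p ∣ M) :
    Kbad8 hp2 M = kerRed (datum hpM h4 hp2) :=
  dif_pos ⟨h4, h8, hpM⟩

theorem Kbad8_top {M : ℕ} [NeZero M] (h8 : 8 ∣ M) : Kbad8 hp2 M = ⊤ :=
  dif_neg fun h => h.2.1 h8

open Classical in
/-- the kernel of reduction at the good level `M`. -/
def Kgood8 (p : ℕ) [Fact p.Prime] (M : ℕ) [NeZero M] : AddSubgroup (JZero M) :=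
  if h : 4 ∣ M ∧ ¬ 8 ∣ M ∧ ¬ p ∣ M then (redPic (goodDatum h.2.2 h.1)).ker else ⊤

theorem Kgood8_eq {M : ℕ} [NeZero M] (h4 : 4 ∣ M) (h8 : ¬ 8 ∣ M) (hpM : ¬ p ∣ M) :
    Kgood8 p M = (redPic (goodDatum hpM h4)).ker :=
  dif_pos ⟨h4, h8, hpM⟩

/-- **FUNC, degeneracy maps** (levels `4 ∥ M`). -/
def DegOut8 (p : ℕ) [Fact p.Prime] (hp2 : p ≠ 2) : Prop :=
  ∀ (M₁ M₂ r : ℕ) [NeZero M₁] [NeZero M₂] [NeZero r] (h4₁ : 4 ∣ M₁) (h8₁ : ¬ 8 ∣ M₁)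
    (hpM₁ : ¬ p ∣ M₁) (h4₂ : 4 ∣ M₂) (h8₂ : ¬ 8 ∣ M₂) (hpM₂ : ¬ p ∣ M₂), r.Prime → ¬ r ∣ M₁ * p →
    M₁ * r = M₂ →
    ∀ (φ ψ : FF (M₁ * p) →ₐ[Kbar] FF (M₂ * p)), IsAlpha φ → IsBeta r ψ →
    ∀ (fφ : FiniteAlong Kbar φ) (fψ : FiniteAlong Kbar ψ),
      (∀ y ∈ kerRed (datum hpM₁ h4₁ hp2), pullL φ fφ y ∈ kerRed (datum hpM₂ h4₂ hp2)) ∧
      (∀ y ∈ kerRed (datum hpM₁ h4₁ hp2), pullL ψ fψ y ∈ kerRed (datum hpM₂ h4₂ hp2)) ∧
      (∀ x ∈ kerRed (datum hpM₂ h4₂ hp2), pushL φ fφ x ∈ kerRed (datum hpM₁ h4₁ hp2)) ∧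
      (∀ x ∈ kerRed (datum hpM₂ h4₂ hp2), pushL ψ fψ x ∈ kerRed (datum hpM₁ h4₁ hp2))

/-- **FUNC, automorphisms** (levels `4 ∥ M`). -/
def AutOut8 (p : ℕ) [Fact p.Prime] (hp2 : p ≠ 2) : Prop :=
  ∀ (M : ℕ) [NeZero M] (h4 : 4 ∣ M) (h8 : ¬ 8 ∣ M) (hpM : ¬ p ∣ M),
    (∀ x ∈ kerRed (datum hpM h4 hp2),
      s1Op (M * p) (Dvd.dvd.mul_right h4 p) x ∈ kerRed (datum hpM h4 hp2)) ∧
    (∀ x ∈ kerRed (datum hpM h4 hp2), frickeJ (M * p) x ∈ kerRed (datum hpM h4 hp2))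

/-- `8 ∣ M r ↔ 8 ∣ M` for an odd prime `r`. -/
theorem eight_dvd_mul_iff {M r : ℕ} (hr : r.Prime) (hr2 : r ≠ 2) : 8 ∣ M * r ↔ 8 ∣ M := by
  constructor
  · intro h
    have hc : Nat.Coprime 8 r := by
      have : Nat.Coprime (2 ^ 3) r :=
        Nat.Coprime.pow_left 3 ((Nat.coprime_primes Nat.prime_two hr).mpr (Ne.symm hr2))
      simpa using this
    exact hc.dvd_of_dvd_mul_right h
  · intro h
    exact h.mul_right r

/-- **the reduction side** from the chapters. -/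
theorem redFacts8 [NeZero p] (hdeg : DegOut8 p hp2) (haut : AutOut8 p hp2) :
    RedFacts p (Fact.out : p.Prime) (Kbad8 hp2) (Kgood8 p) where
  deg := by
    intro M₁ M₂ r _ _ _ h4₁ hpM₂ hr hrM h φ ψ hφ hψ fφ fψ
    have hd : M₁ ∣ M₂ := Dvd.intro _ h
    have hpM₁ : ¬ p ∣ M₁ := fun h' => hpM₂ (h'.trans hd)
    have h4₂ : 4 ∣ M₂ := h4₁.trans hd
    have hr2 : r ≠ 2 := by
      rintro rfl
      exact hrM (((by norm_num : (2 : ℕ) ∣ 4).trans h4₁).mul_right p)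
    by_cases h8 : 8 ∣ M₁
    · have h8₂ : 8 ∣ M₂ := h8.trans hd
      rw [Kbad8_top hp2 h8, Kbad8_top hp2 h8₂]
      exact ⟨fun _ _ => AddSubgroup.mem_top _, fun _ _ => AddSubgroup.mem_top _,
        fun _ _ => AddSubgroup.mem_top _, fun _ _ => AddSubgroup.mem_top _⟩
    · have h8₂ : ¬ 8 ∣ M₂ := by
        rw [← h, eight_dvd_mul_iff hr hr2]
        exact h8
      rw [Kbad8_eq hp2 h4₁ h8 hpM₁, Kbad8_eq hp2 h4₂ h8₂ hpM₂]
      exact hdeg M₁ M₂ r h4₁ h8 hpM₁ h4₂ h8₂ hpM₂ hr hrM h φ ψ hφ hψ fφ fψ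
  aut := by
    intro M _ h4 hpM
    by_cases h8 : 8 ∣ M
    · rw [Kbad8_top hp2 h8]
      exact ⟨fun _ _ => AddSubgroup.mem_top _, fun _ _ => AddSubgroup.mem_top _⟩
    · rw [Kbad8_eq hp2 h4 h8 hpM]
      exact haut M h4 h8 hpM
  x1 := by
    intro M _ h4 hpM t ht htors u
    by_cases h8 : 8 ∣ M
    · have : Kgood8 p M = ⊤ := dif_neg fun h => h.2.1 h8
      rw [this]
      exact AddSubgroup.mem_top _
    · rw [Kgood8_eq h4 h8 hpM]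
      exact Fermat.Agent.MP.FIN.X1Good3.mem_ker_redPic_goodDatum hpM h4 t ht htors u
  pdeg := by
    intro M _ h4 hpM u hu
    by_cases h8 : 8 ∣ M
    · rw [Kbad8_top hp2 h8]
      exact ⟨AddSubgroup.mem_top _, AddSubgroup.mem_top _⟩
    · rw [Kgood8_eq h4 h8 hpM] at hu
      rw [Kbad8_eq hp2 h4 h8 hpM]
      exact ⟨Fermat.Agent.MP.TAU.PullKerInst9.alphaPull_mem_kerRed hpM h4 hp2 u hu,
        Fermat.Agent.MP.TAU.PullKerInst9.betaPull_mem_kerRed hpM h4 hp2 u hu⟩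

end Families

local notation "GQ" => (AlgebraicClosure ℚ ≃ₐ[ℚ] AlgebraicClosure ℚ)

/-- **`HeckeMain5.heckeOut` exporting `¬ 8 ∣ M₀`.** -/
theorem heckeOut8 (P : FreyPackage) [NeZero P.p] {M' : ℕ} [NeZero M']
    (hcond : P.IsConductorLevel (M' * P.p))
    (hirr : Point.GaloisRepIsIrreducible (K := Qb) ℚ P.freyCurve P.p)
    (hmod : P.ModularRepOfLevel (M' * P.p)) (hnot : ¬ P.ModularRepOfLevel M')
    (lat : LatStmt P.freyCurve M' P.p)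
    {K : ∀ (M : ℕ) [NeZero M], AddSubgroup (JZero (M * P.p))}
    {Kg : ∀ (M : ℕ) [NeZero M], AddSubgroup (JZero M)}
    (red : RedFacts P.p P.pp K Kg) :
    ∃ (M₀ : ℕ) (_ : NeZero M₀) (h4 : 4 ∣ M₀) (_ : ¬ 8 ∣ M₀) (hpM : ¬ P.p ∣ M₀),
      HeckeOut P M₀ hpM (K M₀) (cWOp (M₀ * P.p) (Dvd.dvd.mul_right h4 P.p)) := by
  classical
  haveI hpF : Fact P.p.Prime := ⟨P.pp⟩
  haveI : P.freyCurve.IsElliptic :=
    ⟨isUnit_iff_ne_zero.mpr (Fermat.Agent.S13.FreyDelta.freyCurve_Δ_ne_zero P)⟩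
  have hpp := P.pp
  have hp5 := P.hp5
  have h4N : ¬ 4 ∣ M' := fun h => hcond.not_four_dvd (Dvd.dvd.mul_right h P.p)
  have hpM' : ¬ P.p ∣ M' := by
    intro h
    refine hcond.sq_not_dvd hpp ?_
    rw [pow_two]
    exact Nat.mul_dvd_mul h (dvd_refl _)
  obtain ⟨odd, hpar⟩ : ∃ odd : Bool, if odd then Odd M' else 2 ∣ M' := by
    rcases Nat.even_or_odd M' with h | h
    · exact ⟨false, even_iff_two_dvd.mp h⟩
    · exact ⟨true, h⟩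
  obtain ⟨M'', hM⟩ : ∃ M'' : ℕ, M' * ratio odd = M'' := ⟨_, rfl⟩
  have hratio0 : ratio odd ≠ 0 := by cases odd <;> simp [ratio]
  haveI : NeZero M'' := ⟨by rw [← hM]; exact Nat.mul_ne_zero (NeZero.ne M') hratio0⟩
  have h4 : 4 ∣ M'' := by
    rw [← hM]
    cases odd
    · obtain ⟨k, hk⟩ : 2 ∣ M' := hpar
      exact ⟨k, by show M' * 2 = 4 * k; rw [hk]; ring⟩
    · exact ⟨M', by show M' * 4 = 4 * M'; ring⟩
  have h8 : ¬ 8 ∣ M'' := by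
    rw [← hM]
    cases odd
    · rintro ⟨k, hk⟩
      exact h4N ⟨k, by have : M' * 2 = 8 * k := hk; omega⟩
    · rintro ⟨k, hk⟩
      have h2 : Odd M' := hpar
      have : M' * 4 = 8 * k := hk
      exact (Nat.not_even_iff_odd.mpr h2) ⟨k, by omega⟩
  have hpM : ¬ P.p ∣ M'' := by
    rw [← hM]
    intro h
    rcases (Nat.Prime.dvd_mul hpp).mp h with h | h
    · exact hpM' h
    · have : P.p ≤ 4 := Nat.le_of_dvd (by norm_num) (h.trans (by cases odd <;> simp [ratio]))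
      omega
  obtain ⟨f, W, 𝔪, hf, hW, hmax, hpm, hcong⟩ := hmod
  obtain ⟨y₀, hy₀, hpy₀, heig₀⟩ :=
    Fermat.Agent.MP.HECKE.Occ5.exists_eigen_torsion (N := M' * P.p) (p := P.p) W f 𝔪 hf hmax hpm hcong
  have hnotW : ¬ W.IsResiduallyModularOfLevel P.p M' := by
    rintro ⟨f', 𝔪', h1, h2, h3, h4'⟩
    exact hnot ⟨f', W, 𝔪', h1, hW, h2, h3, h4'⟩
  have hlat := lat W hW hnotW
  obtain ⟨η, V₁, e₁, r, hη, he₁, hV₁p, hV₁T, hV₁e, hV₁w, hr, hrB, hrgood, hrdiv⟩ :=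
    Fermat.Agent.MP.HECKE.EigenV5.exists_V1 hp5 odd hM hpar h4 h8 P.freyCurve hW hirr y₀ hy₀ hpy₀
      heig₀
  haveI : NeZero r := ⟨hr.ne_zero⟩
  have hr2 : r ≠ 2 := by
    rintro rfl
    exact hrB (((by norm_num : (2 : ℕ) ∣ 4).trans h4).mul_right P.p)
  have h8₀ : ¬ 8 ∣ M'' * r := by
    rw [eight_dvd_mul_iff hr hr2]
    exact h8
  obtain ⟨hpM₀, h4₀, V, e, Ξ, u, h1, h2, h3, h4', h5, h6⟩ :=
    Fermat.Agent.MP.HECKE.Main5.core hp5 red odd hM hpar h4 hpM hlat η hη V₁ e₁ he₁ hV₁p hV₁T hV₁e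
      hV₁w r hr hrB hrgood hrdiv
  exact ⟨M'' * r, inferInstance, Dvd.dvd.mul_right h4 r, h8₀, hpM₀, V, e, Ξ, u, h1, h2, h3, h4', h5,
    h6⟩

/-- **S44 from FUNC (`DegOut8`, `AutOut8`, `WOut`) and TH (`THOut`), all at levels `4 ∥ M`.** -/
theorem s44_of_four8 (P : FreyPackage) {N : ℕ} (hcond : P.IsConductorLevel N) (hpN : P.p ∣ N)
    (hirr : Point.GaloisRepIsIrreducible (K := AlgebraicClosure ℚ) ℚ P.freyCurve P.p)
    (hmod : P.ModularRepOfLevel N)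
    (hdeg : haveI : Fact P.p.Prime := ⟨P.pp⟩
      ∀ hp2 : P.p ≠ 2, DegOut8 P.p hp2)
    (haut : haveI : Fact P.p.Prime := ⟨P.pp⟩
      ∀ hp2 : P.p ≠ 2, AutOut8 P.p hp2)
    (hTH : haveI : Fact P.p.Prime := ⟨P.pp⟩
      ∀ (M₀ : ℕ) [NeZero M₀] (h4 : 4 ∣ M₀) (_ : ¬ 8 ∣ M₀) (hpM : ¬ P.p ∣ M₀) (hp2 : P.p ≠ 2)
        (ζ : Qb), IsPrimitiveRoot ζ P.p → THOut hpM h4 hp2 ζ)
    (hW : haveI : Fact P.p.Prime := ⟨P.pp⟩
      ∀ (M₀ : ℕ) [NeZero M₀] (h4 : 4 ∣ M₀) (_ : ¬ 8 ∣ M₀) (hpM : ¬ P.p ∣ M₀) (hp2 : P.p ≠ 2),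
        WOut hpM h4 hp2 (cWOp (M₀ * P.p) (Dvd.dvd.mul_right h4 P.p))) :
    ∃ M : ℕ, M ∣ N ∧ ¬ P.p ∣ M ∧ P.ModularRepOfLevel M := by
  haveI : Fact P.p.Prime := ⟨P.pp⟩
  haveI : NeZero P.p := ⟨P.hp0⟩
  have hp2 : P.p ≠ 2 := by have := P.hp5; omega
  have hN : N / P.p * P.p = N := Nat.div_mul_cancel hpN
  have hM'0 : N / P.p ≠ 0 := by
    intro h0
    rw [h0, zero_mul] at hN
    exact hcond.pos.ne' hN.symm
  haveI : NeZero (N / P.p) := ⟨hM'0⟩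
  refine ⟨N / P.p, Nat.div_dvd_of_dvd hpN, ?_, ?_⟩
  · intro h
    apply hcond.sq_not_dvd P.pp
    obtain ⟨k, hk⟩ := h
    refine ⟨k, ?_⟩
    have h1 : N = P.p * (N / P.p) := (Nat.mul_div_cancel' hpN).symm
    rw [h1, hk]; ring
  · by_contra hno
    have hcond' : P.IsConductorLevel (N / P.p * P.p) := by rw [hN]; exact hcond
    have hmod' : P.ModularRepOfLevel (N / P.p * P.p) := by rw [hN]; exact hmod
    obtain ⟨M₀, hM₀, h4, h8, hpM, hH⟩ := heckeOut8 P hcond' hirr hmod' hno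
      (Fermat.Agent.MP.HECKE.LatGlue6.latStmt P (N / P.p))
      (redFacts8 hp2 (hdeg hp2) (haut hp2))
    rw [Kbad8_eq hp2 h4 h8 hpM] at hH
    obtain ⟨ζ, hζ⟩ := exists_primitiveRoot P.p
    obtain ⟨hthick, Φ, Φ_mem, Φ_fix, Φ_ann, Φ_ord⟩ := hTH M₀ h4 h8 hpM hp2 ζ hζ
    exact false_of_heckeOut P hpM h4 hp2 P.hp5 (hcond.p_dvd_abc hpN) _ hH hζ hthick Φ Φ_fix
      Φ_ann Φ_mem Φ_ord (hW M₀ h4 h8 hpM hp2)
      (Fermat.Agent.MP.TAU.Final9.frickeStable_padic hpM)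

end

end Fermat.Agent.MP.FINAL.S44Eight6
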