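/-
Programme MP (row 38 via S44), chapter FINAL (helper6): **S44 from the ONE remaining input (H2) for the
twist `s₁`** (`AutMain6.S1Gauss`, at the levels `4 ∥ M`, `p ∤ M`).

`s44_of_s1` = `S44Eight6.s44_of_four8` fed with
* `hdeg` := helper9's `DegOut9.degOut`,
* `haut`, `hW` := `AutMain6.autOut8_of_gauss`, `AutMain6.wOut_of_gauss` (helper8's `AutWMain8` for the Fricke
  involution + the hypothesis on `s₁`),
* `hTH` := `THOut6.thOut` (helper7's `Reg7.reg_datum`, helper2's `Cusp2.h0/h1`).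
-/
import Mathlib
import Fermat.Agent.MP.FINAL.S44Eight6
import Fermat.Agent.MP.FUNC.AutMain6
import Fermat.Agent.MP.FUNC.DegOut9
import Fermat.Agent.MP.TH.THOut6

set_option autoImplicit false
set_option linter.unusedSectionVars false
set_option linter.unusedVariables false
set_option linter.style.longLine false
set_option linter.style.haveILetI false
set_option synthInstance.maxHeartbeats 400000
set_option maxHeartbeats 1000000

open WeierstrassCurve WeierstrassCurve.Affine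

namespace Fermat.Agent.MP.FINAL.S44Top6

open Fermat.Agent.MP.FINAL.S44Eight6 Fermat.Agent.MP.FUNC.AutMain6

/-- **S44 from (H2) for the twist `s₁`.** -/
theorem s44_of_s1 (P : FreyPackage) {N : ℕ} (hcond : P.IsConductorLevel N) (hpN : P.p ∣ N)
    (hirr : Point.GaloisRepIsIrreducible (K := AlgebraicClosure ℚ) ℚ P.freyCurve P.p)
    (hmod : P.ModularRepOfLevel N)
    (hS : haveI : Fact P.p.Prime := ⟨P.pp⟩
      ∀ (hp2 : P.p ≠ 2) (M : ℕ) [NeZero M] (h4 : 4 ∣ M) (_ : ¬ 8 ∣ M) (hpM : ¬ P.p ∣ M),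
        S1Gauss hpM h4 hp2) :
    ∃ M : ℕ, M ∣ N ∧ ¬ P.p ∣ M ∧ P.ModularRepOfLevel M := by
  haveI : Fact P.p.Prime := ⟨P.pp⟩
  refine s44_of_four8 P hcond hpN hirr hmod ?_ ?_ ?_ ?_
  · intro hp2 M₁ M₂ r _ _ _ h4₁ _ hpM₁ h4₂ _ hpM₂
    exact Fermat.Agent.MP.FUNC.DegOut9.degOut P.p hp2 M₁ M₂ r h4₁ hpM₁ h4₂ hpM₂
  · intro hp2
    exact autOut8_of_gauss hp2 (hS hp2)
  · intro M₀ _ h4 h8 hpM hp2 ζ _
    exact Fermat.Agent.MP.TH.THOut6.thOut hpM h4 hp2 ζ
  · intro M₀ _ h4 h8 hpM hp2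
    exact wOut_of_gauss hpM h4 hp2 h8 (hS hp2 M₀ h4 h8 hpM)

end Fermat.Agent.MP.FINAL.S44Top6
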