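/-
Programme MP (row 38 via S44), chapter FINAL (helper6): **the frozen statement S44, unconditionally.**

`s44` = `S44Top6.s44_of_s1` fed with `AutSMain6.s1Gauss` (helper8's `AutS8.gaussHyp_s1`).
-/
import Mathlib
import Fermat.Agent.MP.FINAL.S44Top6
import Fermat.Agent.MP.FUNC.AutSMain6

set_option autoImplicit false
set_option linter.unusedSectionVars false
set_option linter.unusedVariables false
set_option linter.style.longLine false
set_option linter.style.haveILetI false
set_option synthInstance.maxHeartbeats 400000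
set_option maxHeartbeats 1000000

open WeierstrassCurve WeierstrassCurve.Affine

namespace Fermat.Agent.MP.FINAL.S44Done6

/-- **S44** (`level_lowering_at_p_of_conductorLevel`). -/
theorem s44 (P : FreyPackage) {N : ℕ} (hcond : P.IsConductorLevel N) (hpN : P.p ∣ N)
    (hirr : Point.GaloisRepIsIrreducible (K := AlgebraicClosure ℚ) ℚ P.freyCurve P.p)
    (hmod : P.ModularRepOfLevel N) :
    ∃ M : ℕ, M ∣ N ∧ ¬ P.p ∣ M ∧ P.ModularRepOfLevel M := by
  haveI : Fact P.p.Prime := ⟨P.pp⟩
  exact Fermat.Agent.MP.FINAL.S44Top6.s44_of_s1 P hcond hpN hirr hmod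
    (fun hp2 M _ h4 _ hpM => Fermat.Agent.MP.FUNC.AutSMain6.s1Gauss hpM h4 hp2)

end Fermat.Agent.MP.FINAL.S44Done6
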